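import Fermat.Agent.Jac.CharForm
import Fermat.Agent.DS.Kum.An.EisCharOf

/-!
# PROGRAMME III (S48), block X1-KUM, leaf KUM-2 (a2) (helper25): forms with character on ANY
`Γ ≤ SL(2,ℤ)`

The `Γ`-generic port of `Jac/CharForm.lean` (written there for `Γ₀(N)`).

`CharFormOf Γ k χ` : holomorphic functions `A : ℍ → ℂ` with `A ∣[k] γ = χ γ • A` for `γ ∈ Γ` and
`A ∣[k] σ` bounded at `i∞` for every `σ ∈ SL(2, ℤ)`; `χ : Γ →* ℂˣ` is an arbitrary character.

* `CharFormOf.mul`, `CharFormOf.pow`, `CharFormOf.one`, `CharFormOf.cast`;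
* `CharFormOf.smul_apply` : `A (γ • z) = χ γ * denom γ z ^ k * A z`;
* `CharFormOf.toModularForm` (`χ = 1`, `Γ` of finite index), `CharFormOf.ofModularForm`;
* `CharFormOf.ofGamma0`, `CharFormOf.toGamma0` : for `Γ = Γ₀(N)` this is main's `Jac.CharForm`;
* `eisCharFormOf` : helper9's Eisenstein series `eisCharOf χ k` as a `CharFormOf Γ k χ`;
  `exists_eisCharFormOf_ne_zero`, `eisOneFormOf`.
-/

set_option autoImplicit false

open UpperHalfPlane EisensteinSeries Matrix ModularForm CongruenceSubgroup Filter Topology Complex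
  Set

open scoped MatrixGroups Manifold

noncomputable section

namespace Fermat.Agent.DS.Kum

open Fermat.Agent.Jac

/-- A holomorphic form of weight `k` with character `χ` on `Γ`, bounded at all cusps. -/
structure CharFormOf (Γ : Subgroup SL(2, ℤ)) (k : ℤ) (χ : ↥Γ →* ℂˣ) where
  /-- the underlying function -/
  toFun : ℍ → ℂ
  holo' : MDiff toFun
  slash' : ∀ γ : ↥Γ, toFun ∣[k] (γ : SL(2, ℤ)) = ((χ γ : ℂˣ) : ℂ) • toFun
  bdd' : ∀ σ : SL(2, ℤ), IsBoundedAtImInfty (toFun ∣[k] σ)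

namespace CharFormOf

variable {Γ : Subgroup SL(2, ℤ)} {k k' : ℤ} {χ χ' : ↥Γ →* ℂˣ}

instance : CoeFun (CharFormOf Γ k χ) fun _ => ℍ → ℂ := ⟨CharFormOf.toFun⟩

@[ext] theorem ext {A B : CharFormOf Γ k χ} (h : ∀ z, A z = B z) : A = B := by
  cases A
  cases B
  congr
  exact funext h

theorem holo (A : CharFormOf Γ k χ) : MDiff (A : ℍ → ℂ) := A.holo'

theorem slash (A : CharFormOf Γ k χ) (γ : ↥Γ) :
    (A : ℍ → ℂ) ∣[k] (γ : SL(2, ℤ)) = ((χ γ : ℂˣ) : ℂ) • (A : ℍ → ℂ) := A.slash' γ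

theorem bdd (A : CharFormOf Γ k χ) (σ : SL(2, ℤ)) : IsBoundedAtImInfty ((A : ℍ → ℂ) ∣[k] σ) :=
  A.bdd' σ

/-- The transformation law, pointwise. -/
theorem smul_apply (A : CharFormOf Γ k χ) (γ : ↥Γ) (z : ℍ) :
    A ((γ : SL(2, ℤ)) • z) = ((χ γ : ℂˣ) : ℂ) * denom (γ : SL(2, ℤ)) z ^ k * A z := by
  have h := congrFun (A.slash γ) z
  rw [SL_slash_apply, Pi.smul_apply, smul_eq_mul, _root_.zpow_neg,
    mul_inv_eq_iff_eq_mul₀ (zpow_ne_zero _ (denom_ne_zero _ z))] at h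
  rw [h]
  ring

/-- Change of weight and character along equalities. -/
def cast (hk : k = k') (hχ : χ = χ') (A : CharFormOf Γ k χ) : CharFormOf Γ k' χ' where
  toFun := A
  holo' := A.holo
  slash' γ := by
    subst hk hχ
    exact A.slash γ
  bdd' σ := by
    subst hk hχ
    exact A.bdd σ

@[simp] theorem cast_apply (hk : k = k') (hχ : χ = χ') (A : CharFormOf Γ k χ) (z : ℍ) :
    A.cast hk hχ z = A z := rfl

/-- The constant function `1`, of weight `0` and trivial character. -/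
def one : CharFormOf Γ 0 (1 : ↥Γ →* ℂˣ) where
  toFun := 1
  holo' := mdifferentiable_const
  slash' γ := by
    rw [MonoidHom.one_apply, Units.val_one, one_smul]
    exact is_invariant_one _
  bdd' σ := by
    rw [is_invariant_one]
    exact Filter.const_boundedAtFilter _ (1 : ℂ)

@[simp] theorem one_apply (z : ℍ) : (one : CharFormOf Γ 0 (1 : ↥Γ →* ℂˣ)) z = 1 := rfl

/-- The product of two forms with character. -/
def mul (A : CharFormOf Γ k χ) (B : CharFormOf Γ k' χ') : CharFormOf Γ (k + k') (χ * χ') where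
  toFun := (A : ℍ → ℂ) * (B : ℍ → ℂ)
  holo' := A.holo.mul B.holo
  slash' γ := by
    rw [mul_slash_SL2, A.slash, B.slash, MonoidHom.mul_apply, Units.val_mul]
    ext z
    simp only [Pi.mul_apply, Pi.smul_apply, smul_eq_mul]
    ring
  bdd' σ := by
    rw [mul_slash_SL2]
    exact (A.bdd σ).mul (B.bdd σ)

@[simp] theorem mul_apply (A : CharFormOf Γ k χ) (B : CharFormOf Γ k' χ') (z : ℍ) :
    A.mul B z = A z * B z := rfl

/-- The `m`-th power of a form with character. -/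
def pow (A : CharFormOf Γ k χ) (m : ℕ) : CharFormOf Γ ((m : ℤ) * k) (χ ^ m) where
  toFun := (A : ℍ → ℂ) ^ m
  holo' := mdifferentiable_pow A.holo m
  slash' γ := by
    rw [pow_slash_SL2, A.slash, smul_pow, MonoidHom.pow_apply, Units.val_pow_eq_pow_val]
  bdd' σ := by
    rw [pow_slash_SL2]
    exact isBoundedAtImInfty_pow (A.bdd σ) m

@[simp] theorem pow_apply (A : CharFormOf Γ k χ) (m : ℕ) (z : ℍ) : A.pow m z = A z ^ m := rfl

/-- Restriction to a smaller group. -/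
def restrict {Γ' : Subgroup SL(2, ℤ)} (h : Γ' ≤ Γ) (A : CharFormOf Γ k χ) :
    CharFormOf Γ' k (χ.comp (Subgroup.inclusion h)) where
  toFun := A
  holo' := A.holo
  slash' γ := A.slash (Subgroup.inclusion h γ)
  bdd' σ := A.bdd σ

@[simp] theorem restrict_apply {Γ' : Subgroup SL(2, ℤ)} (h : Γ' ≤ Γ) (A : CharFormOf Γ k χ)
    (z : ℍ) : A.restrict h z = A z := rfl

/-- A form with trivial character is a modular form for `Γ`. -/
def toModularForm [Γ.FiniteIndex] (A : CharFormOf Γ k (1 : ↥Γ →* ℂˣ)) :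
    ModularForm (Γ.map (Matrix.SpecialLinearGroup.mapGL ℝ)) k where
  toFun := A
  slash_action_eq' g hg := by
    obtain ⟨g, (hg : g ∈ Γ), rfl⟩ := hg
    change (A : ℍ → ℂ) ∣[k] g = _
    have := A.slash ⟨g, hg⟩
    rwa [MonoidHom.one_apply, Units.val_one, one_smul] at this
  holo' := A.holo
  bdd_at_cusps' {c} hc := by
    rw [Subgroup.IsArithmetic.isCusp_iff_isCusp_SL2Z] at hc
    rw [OnePoint.isBoundedAt_iff_forall_SL2Z hc]
    exact fun γ _ => A.bdd γ

@[simp] theorem coe_toModularForm [Γ.FiniteIndex] (A : CharFormOf Γ k (1 : ↥Γ →* ℂˣ)) :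
    ⇑A.toModularForm = (A : ℍ → ℂ) := rfl

/-- A modular form for `Γ` is a form with trivial character. -/
def ofModularForm [Γ.FiniteIndex]
    (f : ModularForm (Γ.map (Matrix.SpecialLinearGroup.mapGL ℝ)) k) :
    CharFormOf Γ k (1 : ↥Γ →* ℂˣ) where
  toFun := f
  holo' := ModularFormClass.holo f
  slash' γ := by
    rw [MonoidHom.one_apply, Units.val_one, one_smul]
    exact SlashInvariantForm.slash_action_eqn f _ ⟨γ, γ.2, rfl⟩
  bdd' σ := ModularFormClass.bdd_at_infty_slash f σ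

@[simp] theorem ofModularForm_apply [Γ.FiniteIndex]
    (f : ModularForm (Γ.map (Matrix.SpecialLinearGroup.mapGL ℝ)) k) (z : ℍ) :
    ofModularForm f z = f z := rfl

/-! ### The dictionary with main's `Jac.CharForm` for `Γ = Γ₀(N)` -/

/-- main's `CharForm N k χ` is `CharFormOf (Gamma0 N) k χ`. -/
def ofGamma0 {N : ℕ} {χ : ↥(Gamma0 N) →* ℂˣ} (A : CharForm N k χ) : CharFormOf (Gamma0 N) k χ where
  toFun := A
  holo' := A.holo
  slash' := A.slash
  bdd' := A.bdd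

/-- `CharFormOf (Gamma0 N) k χ` is main's `CharForm N k χ`. -/
def toGamma0 {N : ℕ} {χ : ↥(Gamma0 N) →* ℂˣ} (A : CharFormOf (Gamma0 N) k χ) : CharForm N k χ where
  toFun := A
  holo' := A.holo
  slash' := A.slash
  bdd' := A.bdd

@[simp] theorem ofGamma0_apply {N : ℕ} {χ : ↥(Gamma0 N) →* ℂˣ} (A : CharForm N k χ) (z : ℍ) :
    ofGamma0 A z = A z := rfl

@[simp] theorem toGamma0_apply {N : ℕ} {χ : ↥(Gamma0 N) →* ℂˣ} (A : CharFormOf (Gamma0 N) k χ)
    (z : ℍ) : toGamma0 A z = A z := rfl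

end CharFormOf

variable {Γ : Subgroup SL(2, ℤ)}

/-- **The Eisenstein series with character** (helper9's `eisCharOf`) as a `CharFormOf`. -/
def eisCharFormOf {χ : ↥Γ →* ℂˣ} (hunit : ∀ γ, ‖((χ γ : ℂˣ) : ℂ)‖ = 1)
    (hpar : ∀ γ : ↥Γ, (γ : SL(2, ℤ)) 1 0 = 0 → χ γ = 1) {k : ℤ} (hk : 3 ≤ k) :
    CharFormOf Γ k χ where
  toFun := eisCharOf χ k
  holo' := mdifferentiable_eisCharOf hunit hk
  slash' γ := eisCharOf_slash hpar k γ
  bdd' σ := isBoundedAtImInfty_eisCharOf_slash hunit hk σ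

@[simp] theorem eisCharFormOf_apply {χ : ↥Γ →* ℂˣ}
    (hunit : ∀ γ, ‖((χ γ : ℂˣ) : ℂ)‖ = 1)
    (hpar : ∀ γ : ↥Γ, (γ : SL(2, ℤ)) 1 0 = 0 → χ γ = 1) {k : ℤ} (hk : 3 ≤ k) (z : ℍ) :
    eisCharFormOf hunit hpar hk z = eisCharOf χ k z := rfl

/-- The Eisenstein series with character is not identically zero (even weight `k ≥ 4`). -/
theorem exists_eisCharFormOf_ne_zero {χ : ↥Γ →* ℂˣ}
    (hunit : ∀ γ, ‖((χ γ : ℂˣ) : ℂ)‖ = 1)
    (hpar : ∀ γ : ↥Γ, (γ : SL(2, ℤ)) 1 0 = 0 → χ γ = 1) {k : ℤ} (hk : 3 ≤ k)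
    (hk2 : Even k) : ∃ z : ℍ, eisCharFormOf hunit hpar hk z ≠ 0 :=
  exists_eisCharOf_ne_zero hunit hpar hk hk2

/-- The trivial character satisfies the hypotheses of `eisCharFormOf`. -/
theorem norm_one_charOf_apply (γ : ↥Γ) :
    ‖(((1 : ↥Γ →* ℂˣ) γ : ℂˣ) : ℂ)‖ = 1 := by simp

/-- `E_{k,1}` : the Eisenstein series of `Γ` with trivial character, as a `CharFormOf`. -/
def eisOneFormOf (Γ : Subgroup SL(2, ℤ)) {k : ℤ} (hk : 3 ≤ k) : CharFormOf Γ k (1 : ↥Γ →* ℂˣ) :=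
  eisCharFormOf norm_one_charOf_apply (fun _ _ => rfl) hk

end Fermat.Agent.DS.Kum
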