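import Mathlib
import Fermat.Agent.DS.Kum.C.CharFormOf
import Fermat.Agent.DS.Kum.LamChar
import Fermat.Agent.DS.X1.Places.Dict
import Fermat.Agent.Jac.DictC.RatioLemmas
import Fermat.Agent.Jac.DictC.TraceFin
import Fermat.Agent.Jac.DictC.KummerDvd
import Fermat.Agent.Jac.MerAction

/-!
# PROGRAMME III (S48), block X1-KUM, leaf KUM-2 (a4) (helper29): the divisibility statement (D4)
for ANY `Γ ≤ SL(2,ℤ)` with an analytic realisation

The `Γ`-generic twin of `Jac/DictC/KummerDvd.lean` (and of `Jac/{DivOrdC, DivOrdCusp, D4Final}`),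
on helper6's generic place dictionary `DS/X1/Places/Dict.lean`
(`place_point_or_cusp` for `D : ModReal K ι Γ W F`) and helper25's `CharFormOf Γ k χ`.

* `thetaMerOf D : F →+* MerH` **(D1)** : the extension of the realisation `D.θ : D.R →+* (ℍ → ℂ)` to
  the fraction field `F`; `thetaMerOf_coe`, `thetaMerOf_algebraMap` (constants ↦ constants),
  `thetaMerOf_j` (`j ↦ j`), `subgroup_smul_thetaMerOf` (`Γ`-invariance), `ordMer_thetaMerOf`,
  `thetaMerOf_unique`;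
* `D4.dvd_ord_of_point`, `D4.dvd_ord_of_cusp` : the local computations at a point place and at a
  cusp place, from the pointwise cross-multiplied identity
  `D.θ a z * B z ^ m = A z ^ m * D.θ b z`;
* `kummer_dvd_of` **(D4)** : if `thetaMerOf D y = (A / B) ^ m` with `A, B` forms of the same weight
  on `Γ` whose characters have finite order and good quotient (`χb / χa ∈ goodChar Γ`), then
  `m ∣ ord_P y` at every place `P` of `F`.  This is the hypothesis `hD4` of the Kummer data of `Γ`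
  (twin of main's `KH.HD4 N`).

**The `±` point.**  The realisation `D : ModReal K ι Γ' W F` lives on a group `Γ' ∋ -1`
(`Γ' = ± Γ₁(M)`), while the forms and their characters live on `Γ` (`Γ = Γ₁(M)`); the only link is
`hpm : ∀ γ ∈ Γ', γ ∈ Γ ∨ -γ ∈ Γ`.  Everything is stated for such a pair; `Γ' = Γ` is the case
`hpm = fun _ h => Or.inl h` (`kummer_dvd_of_self`).

The forms enter through `D4.merOf A = algebraMap HolH MerH ⟨A, A.holo⟩` (reducible; it is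
definitionally the `A.mer` of the twins of `Jac/AlgebraicityChar.lean`).
-/

set_option autoImplicit false
set_option linter.unusedSectionVars false
set_option linter.style.haveILetI false

open UpperHalfPlane ModularForm CongruenceSubgroup Filter Topology
open scoped MatrixGroups ModularForm Manifold

noncomputable section

namespace Fermat.Agent.DS.Kum

open Fermat.Agent.X0 Fermat.Agent.Jac Fermat.Agent.DS.X1.Places
open AlgebraicCurve

/-! ## (D1): the realisation by meromorphic functions -/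

section Theta

variable {K : Type*} [Field K] {ι : K →+* ℂ} {Γ : Subgroup SL(2, ℤ)} {W : ℕ}
  {F : Type*} [Field F] [Algebra K F]

variable (D : ModReal K ι Γ W F)

/-- **(D1)** The realisation of the function field `F` by meromorphic functions on `ℍ` attached to
the analytic realisation data `D`. -/
def thetaMerOf : F →+* MerH := merHom (F := F) D.θ D.θ_inj D.θ_mdiff

/-- `D.θ` with values in the ring of holomorphic functions. -/
def thetaHolOf : D.R →+* HolH := holHom D.θ D.θ_mdiff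

@[simp] theorem coe_thetaHolOf (r : D.R) : (thetaHolOf D r : ℍ → ℂ) = D.θ r := rfl

theorem thetaMerOf_coe (r : D.R) :
    thetaMerOf D (algebraMap D.R F r) = algebraMap HolH MerH (thetaHolOf D r) :=
  merHom_algebraMap (F := F) D.θ D.θ_inj D.θ_mdiff r

theorem thetaMerOf_injective : Function.Injective (thetaMerOf D) := (thetaMerOf D).injective

/-- `θ` maps constants to constants. -/
theorem thetaMerOf_algebraMap (c : K) :
    thetaMerOf D (algebraMap K F c) = constMer (ι c) := by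
  rw [IsScalarTower.algebraMap_apply K D.R F, thetaMerOf_coe]
  show algebraMap HolH MerH _ = algebraMap HolH MerH (constHol (ι c))
  congr 1
  refine holOf_ext fun z => ?_
  rw [coe_thetaHolOf, D.θ_const]
  rfl

/-- `θ` maps constants to constants (`K = ℂ`, `ι = id`: the hypothesis `hθc` of the Kummer
data). -/
theorem thetaMerOf_algebraMap_id {F' : Type*} [Field F'] [Algebra ℂ F']
    (D' : ModReal ℂ (RingHom.id ℂ) Γ W F') (c : ℂ) :
    thetaMerOf D' (algebraMap ℂ F' c) = algebraMap ℂ MerH c :=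
  thetaMerOf_algebraMap D' c

/-- `θ j = j`. -/
theorem thetaMerOf_j : thetaMerOf D D.j = jMer := by
  rw [← D.algebraMap_jR, thetaMerOf_coe, jMer]
  congr 1
  refine holOf_ext fun z => ?_
  rw [coe_thetaHolOf, D.θ_jR]
  rfl

/-- The order of `thetaMerOf D y` at `z` is `ordAtPt D.θ z y`. -/
theorem ordMer_thetaMerOf (z : ℍ) {y : F} (hy : y ≠ 0) :
    ordMer z (thetaMerOf D y) = ordAtPt (R := D.R) D.θ z y :=
  ordMer_merHom D.θ D.θ_inj D.θ_mdiff z hy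

/-- The elements of `F` are `Γ`-invariant functions. -/
theorem smul_thetaMerOf (γ : SL(2, ℤ)) (hγ : γ ∈ Γ) (y : F) :
    γ • thetaMerOf D y = thetaMerOf D y := by
  have key : ∀ r : D.R, γ • thetaMerOf D (algebraMap D.R F r) =
      thetaMerOf D (algebraMap D.R F r) := by
    intro r
    rw [thetaMerOf_coe, smul_algebraMap_hol]
    congr 1
    refine holOf_ext fun z => ?_
    rw [smul_hol_apply, coe_thetaHolOf]
    exact D.θ_inv γ⁻¹ (inv_mem hγ) r z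
  by_cases hy : y = 0
  · rw [hy, map_zero, smul_zero]
  obtain ⟨a, b, _, _, rfl⟩ := exists_eq_div_of_ne_zero (R := D.R) hy
  rw [map_div₀, smul_div₀', key, key]

theorem subgroup_smul_thetaMerOf (γ : ↥Γ) (y : F) :
    γ • thetaMerOf D y = thetaMerOf D y := smul_thetaMerOf D (γ : SL(2, ℤ)) γ.2 y

/-- `thetaMerOf D` is the only ring homomorphism extending `D.θ`. -/
theorem thetaMerOf_unique (θ : F →+* MerH)
    (hθ : ∀ r : D.R, θ (algebraMap D.R F r) = algebraMap HolH MerH (thetaHolOf D r)) :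
    θ = thetaMerOf D := by
  refine IsLocalization.ringHom_ext (nonZeroDivisors D.R) ?_
  ext r
  rw [RingHom.comp_apply, RingHom.comp_apply, hθ, thetaMerOf_coe]

end Theta

/-! ## Forms with character as meromorphic functions -/

namespace D4

variable {Γ Γ' : Subgroup SL(2, ℤ)} {k : ℤ} {χ χa χb : ↥Γ →* ℂˣ}

/-- A form with character as a meromorphic function (definitionally the `A.mer` of the twins of
`Jac/AlgebraicityChar.lean`). -/
abbrev merOf (A : CharFormOf Γ k χ) : MerH := algebraMap HolH MerH ⟨A, A.holo⟩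

theorem merOf_eq_zero_iff (A : CharFormOf Γ k χ) : merOf A = 0 ↔ ∀ z, A z = 0 := by
  rw [merOf, map_eq_zero_iff _ (IsFractionRing.injective HolH MerH)]
  constructor
  · intro h z
    have := congrArg (fun φ : HolH => (φ : ℍ → ℂ) z) h
    exact this
  · intro h
    exact holOf_ext fun z => h z

theorem merOf_ne_zero_iff (A : CharFormOf Γ k χ) : merOf A ≠ 0 ↔ ∃ z, A z ≠ 0 := by
  rw [Ne, merOf_eq_zero_iff]
  push Not
  rfl

theorem coe_ne_zero (A : CharFormOf Γ k χ) (hA : merOf A ≠ 0) : (A : ℍ → ℂ) ≠ 0 := by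
  obtain ⟨z, hz⟩ := (merOf_ne_zero_iff A).mp hA
  intro h
  exact hz (congrFun h z)

/-- Characters `χa`, `χb` with `χb / χa` good agree on the elements with `|tr| ≤ 2`. -/
theorem char_eq_of_good (hgood : χb / χa ∈ goodChar Γ) (γ : ↥Γ)
    (hγ : |((γ : SL(2, ℤ)) : Matrix (Fin 2) (Fin 2) ℤ).trace| ≤ 2) : χa γ = χb γ := by
  have h := hgood.2 γ hγ
  rw [MonoidHom.div_apply, div_eq_one] at h
  exact h.symm

/-- The slash action of `-γ`. -/
theorem slash_neg (f : ℍ → ℂ) (γ : SL(2, ℤ)) :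
    f ∣[k] (-γ) = ((-1 : ℂ) ^ k) • (f ∣[k] γ) := by
  funext z
  rw [Pi.smul_apply, smul_eq_mul, SL_slash_apply, SL_slash_apply, ModularGroup.SL_neg_smul,
    ModularGroup.denom_apply (-γ) z, ModularGroup.denom_apply γ z,
    Matrix.SpecialLinearGroup.coe_neg, Matrix.neg_apply, Matrix.neg_apply]
  have hd : (((-((γ : Matrix (Fin 2) (Fin 2) ℤ) 1 0) : ℤ) : ℂ)) * (z : ℂ) +
      ((-((γ : Matrix (Fin 2) (Fin 2) ℤ) 1 1) : ℤ) : ℂ) =
      (-1 : ℂ) * ((((γ : Matrix (Fin 2) (Fin 2) ℤ) 1 0 : ℤ) : ℂ) * (z : ℂ) +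
        (((γ : Matrix (Fin 2) (Fin 2) ℤ) 1 1 : ℤ) : ℂ)) := by
    push_cast
    ring
  have h1 : ((-1 : ℂ) ^ (-k)) = (-1 : ℂ) ^ k := by
    rw [zpow_neg, ← inv_zpow, inv_neg, inv_one]
  rw [hd, mul_zpow, h1]
  ring

theorem trace_neg_SL (γ : SL(2, ℤ)) :
    ((-γ : SL(2, ℤ)) : Matrix (Fin 2) (Fin 2) ℤ).trace =
      -((γ : SL(2, ℤ)) : Matrix (Fin 2) (Fin 2) ℤ).trace := by
  rw [Matrix.SpecialLinearGroup.coe_neg, Matrix.trace_neg]

/-- **The common multiplier.**  If `χb / χa` is good, `Γ' ⊆ ± Γ` and `γ ∈ Γ'` has `|tr γ| ≤ 2`,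
then `A` and `B` transform under `γ` with the same nonzero multiplier. -/
theorem exists_common_multiplier (hpm : ∀ γ ∈ Γ', γ ∈ Γ ∨ -γ ∈ Γ)
    (hgood : χb / χa ∈ goodChar Γ) (A : CharFormOf Γ k χa) (B : CharFormOf Γ k χb)
    {γ : SL(2, ℤ)} (hγ : γ ∈ Γ')
    (htr : |(γ : Matrix (Fin 2) (Fin 2) ℤ).trace| ≤ 2) :
    ∃ c : ℂ, c ≠ 0 ∧ (A : ℍ → ℂ) ∣[k] γ = c • (A : ℍ → ℂ) ∧
      (B : ℍ → ℂ) ∣[k] γ = c • (B : ℍ → ℂ) := by
  rcases hpm γ hγ with h | h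
  · refine ⟨((χa ⟨γ, h⟩ : ℂˣ) : ℂ), Units.ne_zero _, A.slash ⟨γ, h⟩, ?_⟩
    rw [char_eq_of_good hgood ⟨γ, h⟩ htr]
    exact B.slash ⟨γ, h⟩
  · have htr' : |(((⟨-γ, h⟩ : ↥Γ) : SL(2, ℤ)) : Matrix (Fin 2) (Fin 2) ℤ).trace| ≤ 2 := by
      show |((-γ : SL(2, ℤ)) : Matrix (Fin 2) (Fin 2) ℤ).trace| ≤ 2
      rw [trace_neg_SL, abs_neg]
      exact htr
    have hneg : ∀ f : ℍ → ℂ, f ∣[k] γ = ((-1 : ℂ) ^ k) • (f ∣[k] (-γ)) := by
      intro f
      have := slash_neg (k := k) f (-γ)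
      rwa [neg_neg] at this
    refine ⟨(-1 : ℂ) ^ k * ((χa ⟨-γ, h⟩ : ℂˣ) : ℂ),
      mul_ne_zero (zpow_ne_zero _ (by norm_num)) (Units.ne_zero _), ?_, ?_⟩
    · have h1 := A.slash ⟨-γ, h⟩
      simp only at h1
      rw [hneg, h1, smul_smul]
    · have h1 := B.slash ⟨-γ, h⟩
      simp only at h1
      rw [char_eq_of_good hgood ⟨-γ, h⟩ htr', hneg, h1, smul_smul]

section Real

variable {K : Type*} [Field K] {ι : K →+* ℂ} {W : ℕ} {F : Type*} [Field F] [Algebra K F]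

variable (D : ModReal K ι Γ' W F)

/-- From the identity in `MerH` to the pointwise identity of holomorphic functions. -/
theorem cross_of_thetaMerOf_eq (A : CharFormOf Γ k χa) (B : CharFormOf Γ k χb)
    (hB : merOf B ≠ 0) {m : ℕ} {a b : D.R} (hb : b ≠ 0)
    (hy : thetaMerOf D (algebraMap D.R F a / algebraMap D.R F b) = (merOf A / merOf B) ^ m) :
    ∀ z, D.θ a z * B z ^ m = A z ^ m * D.θ b z := by
  have hb' : thetaMerOf D (algebraMap D.R F b) ≠ 0 := by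
    rw [Ne, map_eq_zero]
    exact (map_ne_zero_iff _ (IsFractionRing.injective D.R F)).mpr hb
  rw [map_div₀, div_pow, div_eq_div_iff hb' (pow_ne_zero m hB), thetaMerOf_coe,
    thetaMerOf_coe] at hy
  unfold merOf at hy
  rw [← map_pow, ← map_pow, ← map_mul, ← map_mul] at hy
  have h3 := IsFractionRing.injective HolH MerH hy
  intro z
  have h4 := congrArg (fun φ : HolH => (φ : ℍ → ℂ) z) h3
  simpa using h4

/-! ## Points -/

theorem dvd_ord_of_point (hpm : ∀ γ ∈ Γ', γ ∈ Γ ∨ -γ ∈ Γ)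
    (A : CharFormOf Γ k χa) (B : CharFormOf Γ k χb) (hA : merOf A ≠ 0)
    (hB : merOf B ≠ 0) (hgood : χb / χa ∈ goodChar Γ) {m : ℕ} {a b : D.R} (ha : a ≠ 0)
    (hb : b ≠ 0) (hcross : ∀ z, D.θ a z * B z ^ m = A z ^ m * D.θ b z)
    (z : ℍ) (γ : SL(2, ℤ)) (e : ℕ) (he : 0 < e)
    (hγ : γ ∈ Γ') (hfin : IsOfFinOrder γ) (hγz : γ • z = z)
    (hprim : IsPrimitiveRoot ((denom (γ : GL (Fin 2) ℝ) z) ^ 2) e) (P : Place K F)
    (hP : ∀ f : F, f ≠ 0 → ordAtPt (R := D.R) D.θ z f = (e : ℤ) * P.ord f) :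
    (m : ℤ) ∣ P.ord (algebraMap D.R F a / algebraMap D.R F b) := by
  have hA0 := coe_ne_zero A hA
  have hB0 := coe_ne_zero B hB
  have hPa : MDiff (D.θ a) := D.θ_mdiff a
  have hPb : MDiff (D.θ b) := D.θ_mdiff b
  have hPa0 : D.θ a ≠ 0 := map_ne_zero_of_injective D.θ_inj ha
  have hPb0 : D.θ b ≠ 0 := map_ne_zero_of_injective D.θ_inj hb
  have hfun : D.θ a * (B : ℍ → ℂ) ^ m = (A : ℍ → ℂ) ^ m * D.θ b := funext hcross
  have hBm : MDiff ((B : ℍ → ℂ) ^ m) := mdifferentiable_pow B.holo m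
  have hAm : MDiff ((A : ℍ → ℂ) ^ m) := mdifferentiable_pow A.holo m
  have hBm0 : (B : ℍ → ℂ) ^ m ≠ 0 := by
    obtain ⟨w, hw⟩ := (merOf_ne_zero_iff B).mp hB
    intro h
    exact pow_ne_zero m hw (by simpa using congrFun h w)
  have hAm0 : (A : ℍ → ℂ) ^ m ≠ 0 := by
    obtain ⟨w, hw⟩ := (merOf_ne_zero_iff A).mp hA
    intro h
    exact pow_ne_zero m hw (by simpa using congrFun h w)
  have hord := congrArg (fun φ : ℍ → ℂ => ordH φ z) hfun
  beta_reduce at hord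
  rw [ordH_mul hPa hBm hPa0 hBm0, ordH_mul hAm hPb hAm0 hPb0, DictC.ordH_pow' B.holo hB0,
    DictC.ordH_pow' A.holo hA0] at hord
  -- the rotation lemma
  obtain ⟨cγ, -, hcA, hcB⟩ := exists_common_multiplier hpm hgood A B hγ
    (DictC.abs_trace_le_two_of_isOfFinOrder γ hfin)
  have hinv : ∀ τ, A (γ • τ) * B τ = A τ * B (γ • τ) := by
    intro τ
    have h1 := congrFun hcA τ
    have h2 := congrFun hcB τ
    rw [SL_slash_apply, Pi.smul_apply, smul_eq_mul] at h1 h2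
    have hd : denom γ τ ^ (-k) ≠ 0 := zpow_ne_zero _ (denom_ne_zero _ τ)
    apply mul_right_cancel₀ hd
    linear_combination B τ * h1 - A τ * h2
  obtain ⟨t, ht⟩ :=
    DictC.dvd_ordH_sub_of_isPrimitiveRoot A.holo hA0 B.holo hB0 γ z hγz hinv hprim
  have hP' := hP _ (div_ne_zero
    ((map_ne_zero_iff _ (IsFractionRing.injective D.R F)).mpr ha)
    ((map_ne_zero_iff _ (IsFractionRing.injective D.R F)).mpr hb))
  rw [ordAtPt_div D.θ_inj D.θ_mdiff z ha hb] at hP'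
  refine ⟨t, ?_⟩
  have he' : (e : ℤ) ≠ 0 := by exact_mod_cast he.ne'
  apply mul_left_cancel₀ he'
  rw [← hP']
  have hord' : (ordH (D.θ a) z : ℤ) + (m : ℤ) * (ordH B z : ℤ) =
      (m : ℤ) * (ordH A z : ℤ) + (ordH (D.θ b) z : ℤ) := by exact_mod_cast hord
  linear_combination hord' + (m : ℤ) * ht

end Real

/-! ## Cusps -/

/-- Translation behaviour of `f ∣[k] h⁻¹` when `f ∣[k] (h⁻¹ T ^ n h) = c • f`. -/
theorem slash_inv_vadd_of_slash (f : ℍ → ℂ) (h : SL(2, ℤ)) (n : ℕ) {c : ℂ}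
    (hc : f ∣[k] (h⁻¹ * ModularGroup.T ^ n * h) = c • f) (τ : ℍ) :
    (f ∣[k] h⁻¹) ((n : ℝ) +ᵥ τ) = c * (f ∣[k] h⁻¹) τ := by
  have h1 : ((f ∣[k] h⁻¹) ∣[k] (ModularGroup.T ^ n : SL(2, ℤ))) τ =
      (f ∣[k] h⁻¹) ((n : ℝ) +ᵥ τ) := by
    rw [SL_slash_apply, DictC.denom_T_pow, one_zpow, mul_one, T_pow_smul_eq_vadd]
  have h2 : (f ∣[k] h⁻¹) ∣[k] (ModularGroup.T ^ n : SL(2, ℤ)) = c • (f ∣[k] h⁻¹) := by
    have e : h⁻¹ * ModularGroup.T ^ n = (h⁻¹ * ModularGroup.T ^ n * h) * h⁻¹ := by group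
    rw [← SlashAction.slash_mul, e, SlashAction.slash_mul, hc, SL_smul_slash]
  rw [← h1, h2, Pi.smul_apply, smul_eq_mul]

/-- Translation behaviour of `A ∣[k] h⁻¹` when `h⁻¹ T ^ n h ∈ Γ`. -/
theorem slash_inv_vadd (A : CharFormOf Γ k χa) (h : SL(2, ℤ)) (n : ℕ)
    (hmem : h⁻¹ * ModularGroup.T ^ n * h ∈ Γ) (τ : ℍ) :
    ((A : ℍ → ℂ) ∣[k] h⁻¹) ((n : ℝ) +ᵥ τ) =
      ((χa ⟨h⁻¹ * ModularGroup.T ^ n * h, hmem⟩ : ℂˣ) : ℂ) * ((A : ℍ → ℂ) ∣[k] h⁻¹) τ :=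
  slash_inv_vadd_of_slash (A : ℍ → ℂ) h n (A.slash ⟨h⁻¹ * ModularGroup.T ^ n * h, hmem⟩) τ

/-- `T ^ n • c = c` means `(out c)⁻¹ T ^ n (out c) ∈ Γ`. -/
theorem conj_T_pow_mem_of_smul_eq {G : Subgroup SL(2, ℤ)} {c : SL(2, ℤ) ⧸ G} {n : ℕ}
    (hfix : ModularGroup.T ^ n • c = c) :
    (Quotient.out c : SL(2, ℤ))⁻¹ * ModularGroup.T ^ n * (Quotient.out c : SL(2, ℤ)) ∈ G := by
  set h : SL(2, ℤ) := Quotient.out c with hh
  have hc : ((h : SL(2, ℤ)) : SL(2, ℤ) ⧸ G) = c := by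
    rw [hh]; exact Quotient.out_eq' c
  have h1 : ModularGroup.T ^ n • (h : SL(2, ℤ) ⧸ G) = (h : SL(2, ℤ) ⧸ G) := by
    rw [hc]; exact hfix
  rw [MulAction.Quotient.smul_mk, smul_eq_mul] at h1
  have h2 := QuotientGroup.eq.mp h1.symm
  rwa [← mul_assoc] at h2

/-- `A ∣[k] h⁻¹` is not identically zero. -/
theorem slash_ne_zero (A : CharFormOf Γ k χa) (hA : merOf A ≠ 0) (h : SL(2, ℤ)) :
    (A : ℍ → ℂ) ∣[k] h⁻¹ ≠ 0 := by
  obtain ⟨z, hz⟩ := (merOf_ne_zero_iff A).mp hA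
  intro h0
  have h1 := congrFun h0 (h • z)
  rw [SL_slash_apply, inv_smul_smul, Pi.zero_apply] at h1
  rcases mul_eq_zero.mp h1 with h2 | h2
  · exact hz h2
  · exact zpow_ne_zero _ (denom_ne_zero _ _) h2

/-- The square of an element of `Γ' ⊆ ± Γ` is in `Γ`. -/
theorem sq_mem_of_pm (hpm : ∀ γ ∈ Γ', γ ∈ Γ ∨ -γ ∈ Γ) {γ : SL(2, ℤ)} (hγ : γ ∈ Γ') :
    γ ^ 2 ∈ Γ := by
  rcases hpm γ hγ with h | h
  · exact Γ.pow_mem h 2
  · have := Γ.pow_mem h 2
    rwa [neg_pow_two] at this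

/-- **Order at `i∞` of `A ∣[k] h⁻¹`** in the parameter `q_{W (2 M)}`, where `χa ^ M = 1`,
`Γ(W) ≤ Γ'` and `Γ' ⊆ ± Γ`. -/
theorem exists_hasOrdInf_slash {W : ℕ} [NeZero W] (hΓ : CongruenceSubgroup.Gamma W ≤ Γ')
    (hpm : ∀ γ ∈ Γ', γ ∈ Γ ∨ -γ ∈ Γ)
    (A : CharFormOf Γ k χa) (hA : merOf A ≠ 0)
    (c : SL(2, ℤ) ⧸ Γ') (M : ℕ) [NeZero M] (hM : χa ^ M = 1) :
    ∃ ka : ℕ, HasOrdInf (W * (2 * M)) ((A : ℍ → ℂ) ∣[k] (Quotient.out c : SL(2, ℤ))⁻¹) ka := by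
  set h : SL(2, ℤ) := Quotient.out c with hh
  have hTN : ModularGroup.T ^ W • c = c := by
    have := congrArg (fun σ : Equiv.Perm (SL(2, ℤ) ⧸ Γ') => σ c)
      (toPerm_T_pow_eq_one_of_gamma_le (W := W) hΓ)
    simp only [Equiv.Perm.one_apply] at this
    rwa [toPerm_pow_apply] at this
  have hmemN : h⁻¹ * ModularGroup.T ^ W * h ∈ Γ' := conj_T_pow_mem_of_smul_eq hTN
  have hmem2 : (h⁻¹ * ModularGroup.T ^ W * h) ^ 2 ∈ Γ := sq_mem_of_pm hpm hmemN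
  have hconj : h⁻¹ * ModularGroup.T ^ (W * (2 * M)) * h =
      ((h⁻¹ * ModularGroup.T ^ W * h) ^ 2) ^ M := by
    have := conj_pow (a := h⁻¹) (i := 2 * M) (b := ModularGroup.T ^ W)
    rw [inv_inv] at this
    rw [← pow_mul, this, ← pow_mul]
  have hmem : h⁻¹ * ModularGroup.T ^ (W * (2 * M)) * h ∈ Γ := by
    rw [hconj]
    exact Γ.pow_mem hmem2 M
  have hχ : χa ⟨h⁻¹ * ModularGroup.T ^ (W * (2 * M)) * h, hmem⟩ = 1 := by
    have e : (⟨h⁻¹ * ModularGroup.T ^ (W * (2 * M)) * h, hmem⟩ : ↥Γ) =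
        (⟨(h⁻¹ * ModularGroup.T ^ W * h) ^ 2, hmem2⟩ : ↥Γ) ^ M := by
      apply Subtype.ext
      rw [Subgroup.coe_pow]
      exact hconj
    rw [e, map_pow, ← MonoidHom.pow_apply, hM, MonoidHom.one_apply]
  have hper : ∀ τ : ℍ, ((A : ℍ → ℂ) ∣[k] h⁻¹) (((W * (2 * M) : ℕ) : ℝ) +ᵥ τ) =
      ((A : ℍ → ℂ) ∣[k] h⁻¹) τ := by
    intro τ
    rw [slash_inv_vadd A h (W * (2 * M)) hmem τ, hχ, Units.val_one, one_mul]
  have hhol : MDiff ((A : ℍ → ℂ) ∣[k] h⁻¹) := A.holo.slash k _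
  haveI : NeZero (2 * M) := ⟨by have := NeZero.ne M; omega⟩
  exact exists_hasOrdInf_of_bounded hper hhol (A.bdd h⁻¹) (slash_ne_zero A hA h)

section RealCusp

variable {K : Type*} [Field K] {ι : K →+* ℂ} {W : ℕ} [NeZero W] {F : Type*} [Field F]
  [Algebra K F]

variable (D : ModReal K ι Γ' W F)

theorem dvd_ord_of_cusp (hpm : ∀ γ ∈ Γ', γ ∈ Γ ∨ -γ ∈ Γ) (A : CharFormOf Γ k χa) (B : CharFormOf Γ k χb) (hA : merOf A ≠ 0)
    (hB : merOf B ≠ 0) (hfa : IsOfFinOrder χa) (hfb : IsOfFinOrder χb)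
    (hgood : χb / χa ∈ goodChar Γ) {m : ℕ} {a b : D.R} (ha : a ≠ 0) (hb : b ≠ 0)
    (hcross : ∀ z, D.θ a z * B z ^ m = A z ^ m * D.θ b z)
    (c : SL(2, ℤ) ⧸ Γ') (w : ℕ) (hw : 0 < w)
    (hwN : w ∣ W) (hfix : ModularGroup.T ^ w • c = c) (P : Place K F)
    (hP : ∀ f : F, f ≠ 0 → X1.Places.wInf D c f = ((W / w : ℕ) : ℤ) * P.ord f) :
    (m : ℤ) ∣ P.ord (algebraMap D.R F a / algebraMap D.R F b) := by
  set h : SL(2, ℤ) := Quotient.out c with hh
  -- a common exponent killing both characters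
  obtain ⟨Ma, hMa, hχMa⟩ := isOfFinOrder_iff_pow_eq_one.mp hfa
  obtain ⟨Mb, hMb, hχMb⟩ := isOfFinOrder_iff_pow_eq_one.mp hfb
  set M₀ := Ma * Mb with hM₀
  haveI : NeZero M₀ := ⟨(Nat.mul_pos hMa hMb).ne'⟩
  have hχa : χa ^ M₀ = 1 := by
    rw [hM₀]
    exact (pow_mul χa Ma Mb).trans (by rw [hχMa, one_pow])
  have hχb : χb ^ M₀ = 1 := by
    rw [hM₀, mul_comm]
    exact (pow_mul χb Mb Ma).trans (by rw [hχMb, one_pow])
  obtain ⟨ka, hka⟩ := exists_hasOrdInf_slash D.gamma_le hpm A hA c M₀ hχa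
  obtain ⟨kb, hkb⟩ := exists_hasOrdInf_slash D.gamma_le hpm B hB c M₀ hχb
  rw [← hh] at hka hkb
  set M := 2 * M₀ with hM
  haveI : NeZero M := ⟨by have := NeZero.ne M₀; omega⟩
  -- the orders of `θ a ∘ h⁻¹`, `θ b ∘ h⁻¹`
  have hex := hasOrdsInf_thetaC D c
  have hα := hex.hasOrdInf ha
  have hβ := hex.hasOrdInf hb
  have hFa : ∀ τ, cosetHom Γ' D.θ c a τ = D.θ a (h⁻¹ • τ) := fun τ => rfl
  have hFb : ∀ τ, cosetHom Γ' D.θ c b τ = D.θ b (h⁻¹ • τ) := fun τ => rfl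
  -- the identity at the cusp
  have hid : cosetHom Γ' D.θ c a * ((B : ℍ → ℂ) ∣[k] h⁻¹) ^ m =
      ((A : ℍ → ℂ) ∣[k] h⁻¹) ^ m * cosetHom Γ' D.θ c b := by
    funext τ
    simp only [Pi.mul_apply, Pi.pow_apply]
    rw [hFa, hFb, SL_slash_apply, SL_slash_apply, mul_pow, mul_pow]
    linear_combination (denom (h⁻¹ : SL(2, ℤ)) τ ^ (-k)) ^ m * hcross (h⁻¹ • τ)
  have h1 := (DictC.HasOrdInf.of_mul M hα).mul (hkb.pow m)
  have h2 := (hka.pow m).mul (DictC.HasOrdInf.of_mul M hβ)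
  rw [hid] at h1
  have h3 := h1.unique h2
  -- `A' / B'` is `w`-periodic
  have hmemw : h⁻¹ * ModularGroup.T ^ w * h ∈ Γ' := conj_T_pow_mem_of_smul_eq hfix
  obtain ⟨cw, hcw0, hcwA, hcwB⟩ := exists_common_multiplier hpm hgood A B hmemw (by
    rw [DictC.trace_conj_T_pow h w]
    norm_num)
  have hQ : HasOrdInf (W * M) (((A : ℍ → ℂ) ∣[k] h⁻¹) / ((B : ℍ → ℂ) ∣[k] h⁻¹))
      ((ka : ℤ) - (kb : ℤ)) := hka.div hkb
  have hper : ∀ τ : ℍ, (((A : ℍ → ℂ) ∣[k] h⁻¹) / ((B : ℍ → ℂ) ∣[k] h⁻¹)) ((w : ℝ) +ᵥ τ) =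
      (((A : ℍ → ℂ) ∣[k] h⁻¹) / ((B : ℍ → ℂ) ∣[k] h⁻¹)) τ := by
    intro τ
    simp only [Pi.div_apply]
    rw [slash_inv_vadd_of_slash (A : ℍ → ℂ) h w hcwA, slash_inv_vadd_of_slash (B : ℍ → ℂ) h w hcwB]
    exact mul_div_mul_left _ _ hcw0
  obtain ⟨t, ht⟩ := hQ.dvd_of_periodic (d := w) (Dvd.dvd.mul_right hwN M) hper
  -- conclusion
  have hP' := hP _ (div_ne_zero
    ((map_ne_zero_iff _ (IsFractionRing.injective D.R F)).mpr ha)
    ((map_ne_zero_iff _ (IsFractionRing.injective D.R F)).mpr hb))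
  unfold X1.Places.wInf at hP'
  rw [ordAtInf_div hex ha hb] at hP'
  obtain ⟨q, hq⟩ := hwN
  have hNw : W / w = q := by rw [hq, Nat.mul_div_cancel_left _ hw]
  have hNMw : W * M / w = q * M := by rw [hq, mul_assoc, Nat.mul_div_cancel_left _ hw]
  have hq0 : (q : ℤ) ≠ 0 := by
    have : q ≠ 0 := by
      rintro rfl
      rw [mul_zero] at hq
      exact NeZero.ne W hq
    exact_mod_cast this
  have hM0 : (M : ℤ) ≠ 0 := by exact_mod_cast NeZero.ne M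
  rw [hNw] at hP'
  rw [hNMw] at ht
  refine ⟨t, ?_⟩
  apply mul_left_cancel₀ (mul_ne_zero hM0 hq0)
  unfold ordInfR at h3
  push_cast at ht
  linear_combination (-(M : ℤ)) * hP' + h3 + (m : ℤ) * ht

end RealCusp

end D4

/-! ## The divisibility statement (D4) -/

section Main

variable {K : Type*} [Field K] [IsAlgClosed K] [CharZero K] {ι : K →+* ℂ}
  {Γ Γ' : Subgroup SL(2, ℤ)} {W : ℕ} [NeZero W] {F : Type*} [Field F] [Algebra K F]

variable (D : ModReal K ι Γ' W F) {d : ℕ}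

/-- **(D4), `Γ`-generic.** `D` a realisation of `F` on `Γ' ⊆ ± Γ`.  If
`thetaMerOf D y = (A / B) ^ m` with `A, B` forms of the same weight on `Γ` whose characters have
finite order and good quotient, then `m` divides the order of `y` at every place of `F`.  (Twin of
`Jac.DictC.kummer_dvd` / `Jac.hD4_holds`; the hypotheses `hsep, hcard, hdist` are those of the place
dictionary `Places.place_point_or_cusp`.) -/
theorem kummer_dvd_of [Fintype (SL(2, ℤ) ⧸ Γ')] (hpm : ∀ γ ∈ Γ', γ ∈ Γ ∨ -γ ∈ Γ)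
    (hsep : IsSepVar K D.j d)
    (hcard : Fintype.card (SL(2, ℤ) ⧸ Γ') = d) (hdist : Function.Injective (thetaC D))
    (m : ℕ) (k : ℤ) (χa χb : ↥Γ →* ℂˣ)
    (A : CharFormOf Γ k χa) (B : CharFormOf Γ k χb) (hfa : IsOfFinOrder χa)
    (hfb : IsOfFinOrder χb) (hA : D4.merOf A ≠ 0) (hB : D4.merOf B ≠ 0)
    (hgood : χb / χa ∈ goodChar Γ) (y : F)
    (hy : thetaMerOf D y = (D4.merOf A / D4.merOf B) ^ m) (P : Place K F) :
    (m : ℤ) ∣ P.ord y := by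
  have hy0 : y ≠ 0 := by
    rintro rfl
    rw [map_zero] at hy
    exact pow_ne_zero m (div_ne_zero hA hB) hy.symm
  obtain ⟨a, b, ha, hb, rfl⟩ := exists_eq_div_of_ne_zero (R := D.R) hy0
  have hcross := D4.cross_of_thetaMerOf_eq D A B hB hb hy
  rcases place_point_or_cusp D hsep hcard hdist P with ⟨z, γ, e, he, hγ, hfin, hγz, hprim, hP⟩ |
    ⟨c, w, hw, hwN, hfix, hP⟩
  · exact D4.dvd_ord_of_point D hpm A B hA hB hgood ha hb hcross z γ e he hγ hfin hγz hprim P hP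
  · exact D4.dvd_ord_of_cusp D hpm A B hA hB hfa hfb hgood ha hb hcross c w hw hwN hfix P hP

/-- **(D4)** in the pointwise form `∃ z, A z ≠ 0`. -/
theorem kummer_dvd_of' [Fintype (SL(2, ℤ) ⧸ Γ')] (hpm : ∀ γ ∈ Γ', γ ∈ Γ ∨ -γ ∈ Γ)
    (hsep : IsSepVar K D.j d)
    (hcard : Fintype.card (SL(2, ℤ) ⧸ Γ') = d) (hdist : Function.Injective (thetaC D))
    (m : ℕ) (k : ℤ) (χa χb : ↥Γ →* ℂˣ)
    (A : CharFormOf Γ k χa) (B : CharFormOf Γ k χb) (hfa : IsOfFinOrder χa)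
    (hfb : IsOfFinOrder χb) (hA : ∃ z, A z ≠ 0) (hB : ∃ z, B z ≠ 0)
    (hgood : χb / χa ∈ goodChar Γ) (y : F)
    (hy : thetaMerOf D y = (D4.merOf A / D4.merOf B) ^ m) (P : Place K F) :
    (m : ℤ) ∣ P.ord y :=
  kummer_dvd_of D hpm hsep hcard hdist m k χa χb A B hfa hfb ((D4.merOf_ne_zero_iff A).mpr hA)
    ((D4.merOf_ne_zero_iff B).mpr hB) hgood y hy P

/-- **(D4)** when the forms live on the group of the realisation (`Γ' = Γ ∋ -1`). -/
theorem kummer_dvd_of_self (D : ModReal K ι Γ W F) [Fintype (SL(2, ℤ) ⧸ Γ)]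
    (hsep : IsSepVar K D.j d)
    (hcard : Fintype.card (SL(2, ℤ) ⧸ Γ) = d) (hdist : Function.Injective (thetaC D))
    (m : ℕ) (k : ℤ) (χa χb : ↥Γ →* ℂˣ)
    (A : CharFormOf Γ k χa) (B : CharFormOf Γ k χb) (hfa : IsOfFinOrder χa)
    (hfb : IsOfFinOrder χb) (hA : D4.merOf A ≠ 0) (hB : D4.merOf B ≠ 0)
    (hgood : χb / χa ∈ goodChar Γ) (y : F)
    (hy : thetaMerOf D y = (D4.merOf A / D4.merOf B) ^ m) (P : Place K F) :
    (m : ℤ) ∣ P.ord y :=
  kummer_dvd_of D (fun _ h => Or.inl h) hsep hcard hdist m k χa χb A B hfa hfb hA hB hgood y hy P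

end Main

end Fermat.Agent.DS.Kum
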