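import Mathlib
import Fermat.Agent.DS.Kum.C.D4Of
import Fermat.Agent.DS.Kum.An.KummerOf

/-!
# PROGRAMME III (S48), block X1-KUM, leaf KUM-2 (a4), glue (helper29): `HD4Of Γ (thetaMerOf D)`

The divisibility statement (D4) of `DS/Kum/C/D4Of.lean` in the exact shape `HD4Of Γ θ` consumed by
helper9's `kummerDataOf R hD4` (`DS/Kum/An/KummerOf.lean`), for the realisation
`θ = thetaMerOf D` attached to `D : ModReal ℂ id Γ' W F` with `Γ' ⊆ ± Γ`.
-/

set_option autoImplicit false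

open scoped MatrixGroups

namespace Fermat.Agent.DS.Kum

open Fermat.Agent.X0 Fermat.Agent.DS.X1.Places

variable {Γ Γ' : Subgroup SL(2, ℤ)} {W : ℕ} [NeZero W] {F : Type*} [Field F] [Algebra ℂ F]

/-- **(D4) for the realisation `thetaMerOf D`**, in the shape of `kummerDataOf`. -/
theorem hD4Of_thetaMerOf (D : ModReal ℂ (RingHom.id ℂ) Γ' W F) {d : ℕ}
    [Fintype (SL(2, ℤ) ⧸ Γ')] (hpm : ∀ γ ∈ Γ', γ ∈ Γ ∨ -γ ∈ Γ)
    (hsep : IsSepVar ℂ D.j d) (hcard : Fintype.card (SL(2, ℤ) ⧸ Γ') = d)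
    (hdist : Function.Injective (thetaC D)) : HD4Of Γ (thetaMerOf D) :=
  fun m k χa χb A B hfa hfb hA hB hgood y hy P =>
    kummer_dvd_of D hpm hsep hcard hdist m k χa χb A B hfa hfb hA hB hgood y hy P

/-- The same for any `θ` extending `D.θ`. -/
theorem hD4Of_of_extends (D : ModReal ℂ (RingHom.id ℂ) Γ' W F) {d : ℕ}
    [Fintype (SL(2, ℤ) ⧸ Γ')] (hpm : ∀ γ ∈ Γ', γ ∈ Γ ∨ -γ ∈ Γ)
    (hsep : IsSepVar ℂ D.j d) (hcard : Fintype.card (SL(2, ℤ) ⧸ Γ') = d)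
    (hdist : Function.Injective (thetaC D)) (θ : F →+* MerH)
    (hθ : ∀ r : D.R, θ (algebraMap D.R F r) = algebraMap HolH MerH (thetaHolOf D r)) :
    HD4Of Γ θ := by
  rw [thetaMerOf_unique D θ hθ]
  exact hD4Of_thetaMerOf D hpm hsep hcard hdist

end Fermat.Agent.DS.Kum
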