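import Mathlib
import Fermat.Agent.DS.Kum.An.ThetaOf
import Fermat.Agent.DS.Kum.C.D4OfKummer

/-!
# PROGRAMME III (S48), block X1-KUM, leaf KUM-2 (I) (helper28): the Kummer data of `Γ` from an
analytic realisation at `Γ' = ±Γ`

helper6's realisation data `D : ModReal ℂ (RingHom.id ℂ) Γ' W F` need `-1 ∈ Γ'`; for `X₁(M)` they
live at `Γ' = ±Γ₁(M)` whereas the lattice `LamOf Γ`, the characters and the forms with character
live at `Γ = Γ₁(M)` (`-1 ∉ Γ` for `M ≥ 3`).  Everything here is generic in `Γ ≤ Γ' ⊆ ±Γ`; it is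
pure glue between helper9's `An/ThetaOf.lean` (`ThetaData.ofRing`, `merHom_mem_autoField`),
helper29's `C/D4Of.lean`, `C/D4OfKummer.lean` (`thetaMerOf D`, `hD4Of_thetaMerOf`) and helper9's
`An/KummerOf.lean` (`kummerDataOf`).

* `thetaMerOf_mem_autoField` : `thetaMerOf D` maps `F` into `autoField Γ'` (the `hθA` input);
* `ThetaData.ofModReal` : **instance (I)**, `ThetaData Γ F` with `θ = thetaMerOf D` from a separating
  variable `D.j` of degree `[SL(2,ℤ) : Γ']`;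
* `hd4Of_of_modReal` : (D4) for `Γ` = helper29's `hD4Of_thetaMerOf` with the degree `Γ'.index`;
* `kummerDataOfModReal` : the Kummer data of `Γ` over `ℂ`.
-/

set_option autoImplicit false
set_option linter.unusedSectionVars false
set_option linter.style.haveILetI false

open UpperHalfPlane ModularForm CongruenceSubgroup Matrix.SpecialLinearGroup AlgebraicCurve Filter

open scoped MatrixGroups Manifold ModularForm

noncomputable section

namespace Fermat.Agent.DS.Kum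

open Fermat.Agent.Jac Fermat.Agent.DS.X1.Places
open Fermat.Agent.X0 (HolH MerH IsMeroAtCusps IsMeroAtImInfty IsSepVar)

/-! ### Instance (I): `ThetaData` from `ModReal` -/

section Theta

variable {Γ Γ' : Subgroup SL(2, ℤ)} {W : ℕ} {F : Type*} [Field F] [Algebra ℂ F]

/-- **`hθA`**: `thetaMerOf D` takes its values in the automorphic ratios of `Γ'`. -/
theorem thetaMerOf_mem_autoField [Γ'.FiniteIndex] (D : ModReal ℂ (RingHom.id ℂ) Γ' W F) (y : F) :
    thetaMerOf D y ∈ autoField (Γ'.map (mapGL ℝ)) :=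
  merHom_mem_autoField D.R D.θ D.θ_inj D.θ_mdiff D.θ_inv D.θ_mero y

/-- **Instance (I).** The realisation `thetaMerOf D` of `F` (`D` at `Γ' = ±Γ`), with `D.j` a
separating variable of degree `[SL(2,ℤ) : Γ']`, is a `ThetaData Γ F`. -/
def ThetaData.ofModReal [Γ.FiniteIndex] [Γ'.FiniteIndex] (hle : Γ ≤ Γ')
    (hpm : ∀ γ ∈ Γ', γ ∈ Γ ∨ -γ ∈ Γ) (D : ModReal ℂ (RingHom.id ℂ) Γ' W F)
    (hx : IsSepVar ℂ D.j Γ'.index) : ThetaData Γ F :=
  ThetaData.ofRing D.R hle hpm D.θ D.θ_inj D.θ_mdiff D.θ_inv (fun c => D.θ_const c) D.jR D.θ_jR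
    D.θ_mero hx

@[simp] theorem ThetaData.ofModReal_θ [Γ.FiniteIndex] [Γ'.FiniteIndex] (hle : Γ ≤ Γ')
    (hpm : ∀ γ ∈ Γ', γ ∈ Γ ∨ -γ ∈ Γ) (D : ModReal ℂ (RingHom.id ℂ) Γ' W F)
    (hx : IsSepVar ℂ D.j Γ'.index) :
    (ThetaData.ofModReal hle hpm D hx).θ = thetaMerOf D := rfl

end Theta

/-! ### The Kummer data -/

section D4

variable {Γ Γ' : Subgroup SL(2, ℤ)} {W : ℕ} [NeZero W] {F : Type*} [Field F] [Algebra ℂ F]

/-- **(D4) for `Γ`**, helper29's `hD4Of_thetaMerOf` with the degree in the form `Γ'.index`. -/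
theorem hd4Of_of_modReal [Γ'.FiniteIndex] (hpm : ∀ γ ∈ Γ', γ ∈ Γ ∨ -γ ∈ Γ)
    (D : ModReal ℂ (RingHom.id ℂ) Γ' W F)
    (hx : IsSepVar ℂ D.j Γ'.index) (hdist : Function.Injective (thetaC D)) :
    HD4Of Γ (thetaMerOf D) := by
  haveI : Finite (SL(2, ℤ) ⧸ Γ') := Subgroup.finite_quotient_of_finiteIndex
  letI : Fintype (SL(2, ℤ) ⧸ Γ') := Fintype.ofFinite _
  have hcard : Fintype.card (SL(2, ℤ) ⧸ Γ') = Γ'.index := by
    rw [Subgroup.index_eq_card, Nat.card_eq_fintype_card]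
  exact hD4Of_thetaMerOf D hpm hx hcard hdist

/-- **The Kummer data of `Γ` over `ℂ`** from an analytic realisation at `Γ' ⊆ ±Γ`:
`θ = thetaMerOf D`, `Good = goodChar Γ`, `Adm = IsCharRatioOf Γ`. -/
def kummerDataOfModReal [Γ.FiniteIndex] [Γ'.FiniteIndex] (hle : Γ ≤ Γ')
    (hpm : ∀ γ ∈ Γ', γ ∈ Γ ∨ -γ ∈ Γ)
    (D : ModReal ℂ (RingHom.id ℂ) Γ' W F) (hx : IsSepVar ℂ D.j Γ'.index)
    (hdist : Function.Injective (thetaC D)) : KummerData ℂ F MerH ↥Γ :=
  kummerDataOf (ThetaData.ofModReal hle hpm D hx) (hd4Of_of_modReal hpm D hx hdist)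

@[simp] theorem kummerDataOfModReal_θ [Γ.FiniteIndex] [Γ'.FiniteIndex] (hle : Γ ≤ Γ')
    (hpm : ∀ γ ∈ Γ', γ ∈ Γ ∨ -γ ∈ Γ)
    (D : ModReal ℂ (RingHom.id ℂ) Γ' W F) (hx : IsSepVar ℂ D.j Γ'.index)
    (hdist : Function.Injective (thetaC D)) :
    (kummerDataOfModReal hle hpm D hx hdist).θ = thetaMerOf D := rfl

@[simp] theorem kummerDataOfModReal_Good [Γ.FiniteIndex] [Γ'.FiniteIndex] (hle : Γ ≤ Γ')
    (hpm : ∀ γ ∈ Γ', γ ∈ Γ ∨ -γ ∈ Γ)
    (D : ModReal ℂ (RingHom.id ℂ) Γ' W F) (hx : IsSepVar ℂ D.j Γ'.index)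
    (hdist : Function.Injective (thetaC D)) :
    (kummerDataOfModReal hle hpm D hx hdist).Good = goodChar Γ := rfl

end D4

end Fermat.Agent.DS.Kum
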