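import Mathlib
import Fermat.Agent.DS.Kum.C.ThetaOfModReal
import Fermat.Agent.DS.X1.PmGamma1
import Fermat.Agent.DS.X1Hecke.Inst

/-!
# PROGRAMME III (S48), block X1-KUM, leaf KUM-2 (R4) (helper28): the complex Kummer data and the
Kummer homomorphism of `Γ₁(M)`

ASSEMBLY of the generic Kummer layer for `Γ = Γ₁(M)`, `Γ' = ±Γ₁(M)` (`PmGamma1 M`, helper6),
`F = K1L ℂ M = laurentBaseChange ℂ (K1 M)` (helper24 / helper23), in hypothesis form on the three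
inputs of the `ℂ`-instance (helper29's `K1PlacesC.lean`):

* `R : Places.ModReal ℂ (RingHom.id ℂ) (PmGamma1 M) W (K1L ℂ M)` (the analytic realisation),
* `hsep : IsSepVar ℂ R.j (dOne M)` (the degree, `dOne M = ψ(M) φ(M) / 2`),
* `hdist : Function.Injective (Places.thetaC R)` (the conjugates are distinct).

Then:

* `thetaDataOne R hM hsep : ThetaData (Gamma1 M) (K1L ℂ M)`, `θ = thetaMerOf R`;
* `hD4_one R hM hsep hdist : HD4Of (Gamma1 M) (thetaDataOne R hM hsep).θ`;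
* `kummerDataOne R hM hsep hdist : KummerData ℂ (K1L ℂ M) MerH ↥(Gamma1 M)`, `Good = goodChar`;
* `kappaOne … hm hζ : ↥(LamOf (Gamma1 M)) →+ Pic0 ℂ (K1L ℂ M)` with
  `kappaOne_eq_zero_iff` (kernel `m • Λ`, given the Riemann package) and `nsmul_kappaOne`.
-/

set_option autoImplicit false
set_option linter.unusedSectionVars false
set_option linter.style.haveILetI false

open UpperHalfPlane ModularForm CongruenceSubgroup AlgebraicCurve

open scoped MatrixGroups Manifold ModularForm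

noncomputable section

namespace Fermat.Agent.DS.Kum

open Fermat.Agent.Jac Fermat.Agent.DS.X1 Fermat.Agent.DS.X1.Places Fermat.Agent.DS.X1Hecke
open Fermat.Agent.X0 (MerH IsSepVar)

variable {M : ℕ} [NeZero M] {W : ℕ}

/-- `±Γ₁(M) ⊆ ±Γ₁(M)`, in the `hpm` shape. -/
theorem pm_of_mem_PmGamma1 (M : ℕ) :
    ∀ γ ∈ PmGamma1 M, γ ∈ Gamma1 M ∨ -γ ∈ Gamma1 M :=
  fun γ h => (mem_PmGamma1_iff' M γ).mp h

/-- the degree hypothesis in the `index` form. -/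
theorem isSepVar_index_PmGamma1 (hM : 3 ≤ M) {F : Type*} [Field F] [Algebra ℂ F] {x : F}
    (hsep : IsSepVar ℂ x (dOne M)) : IsSepVar ℂ x (PmGamma1 M).index := by
  rw [index_PmGamma1 hM]
  exact hsep

section Data

/-- **The realisation of `ℂ(X₁(M))`** by `Γ₁(M)`-invariant admissible functions, onto. -/
def thetaDataOne (R : ModReal ℂ (RingHom.id ℂ) (PmGamma1 M) W (K1L ℂ M)) (hM : 3 ≤ M)
    (hsep : IsSepVar ℂ R.j (dOne M)) : ThetaData (Gamma1 M) (K1L ℂ M) :=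
  ThetaData.ofModReal (Gamma1_le_PmGamma1 M) (pm_of_mem_PmGamma1 M) R
    (isSepVar_index_PmGamma1 hM hsep)

@[simp] theorem thetaDataOne_θ (R : ModReal ℂ (RingHom.id ℂ) (PmGamma1 M) W (K1L ℂ M))
    (hM : 3 ≤ M) (hsep : IsSepVar ℂ R.j (dOne M)) :
    (thetaDataOne R hM hsep).θ = thetaMerOf R := rfl

variable [NeZero W]

/-- **(D4) for `Γ₁(M)`.** -/
theorem hD4_one (R : ModReal ℂ (RingHom.id ℂ) (PmGamma1 M) W (K1L ℂ M)) (hM : 3 ≤ M)
    (hsep : IsSepVar ℂ R.j (dOne M)) (hdist : Function.Injective (thetaC R)) :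
    HD4Of (Gamma1 M) (thetaDataOne R hM hsep).θ :=
  hd4Of_of_modReal (pm_of_mem_PmGamma1 M) R (isSepVar_index_PmGamma1 hM hsep) hdist

/-- **The complex Kummer data of `Γ₁(M)`.** -/
def kummerDataOne (R : ModReal ℂ (RingHom.id ℂ) (PmGamma1 M) W (K1L ℂ M)) (hM : 3 ≤ M)
    (hsep : IsSepVar ℂ R.j (dOne M)) (hdist : Function.Injective (thetaC R)) :
    KummerData ℂ (K1L ℂ M) MerH ↥(Gamma1 M) :=
  kummerDataOf (thetaDataOne R hM hsep) (hD4_one R hM hsep hdist)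

@[simp] theorem kummerDataOne_θ (R : ModReal ℂ (RingHom.id ℂ) (PmGamma1 M) W (K1L ℂ M))
    (hM : 3 ≤ M) (hsep : IsSepVar ℂ R.j (dOne M)) (hdist : Function.Injective (thetaC R)) :
    (kummerDataOne R hM hsep hdist).θ = thetaMerOf R := rfl

@[simp] theorem kummerDataOne_Good (R : ModReal ℂ (RingHom.id ℂ) (PmGamma1 M) W (K1L ℂ M))
    (hM : 3 ≤ M) (hsep : IsSepVar ℂ R.j (dOne M)) (hdist : Function.Injective (thetaC R)) :
    (kummerDataOne R hM hsep hdist).Good = goodChar (Gamma1 M) := rfl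

variable [HasPrincipalDivisors ℂ (K1L ℂ M)]

/-- **The Kummer homomorphism of `Γ₁(M)`** of level `m`: `Λ₁(M) → Pic⁰(X₁(M))(ℂ)`. -/
def kappaOne (R : ModReal ℂ (RingHom.id ℂ) (PmGamma1 M) W (K1L ℂ M)) (hM : 3 ≤ M)
    (hsep : IsSepVar ℂ R.j (dOne M)) (hdist : Function.Injective (thetaC R))
    {m : ℕ} (hm : 0 < m) {ζ : ℂˣ} (hζ : IsPrimitiveRoot ζ m) :
    ↥(LamOf (Gamma1 M)) →+ Pic0 ℂ (K1L ℂ M) :=
  kappaLamOf (kummerDataOne R hM hsep hdist) (kummerDataOne_Good R hM hsep hdist) hm hζ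

theorem kappaOne_eq_kappaLamOf (R : ModReal ℂ (RingHom.id ℂ) (PmGamma1 M) W (K1L ℂ M))
    (hM : 3 ≤ M) (hsep : IsSepVar ℂ R.j (dOne M)) (hdist : Function.Injective (thetaC R))
    {m : ℕ} (hm : 0 < m) {ζ : ℂˣ} (hζ : IsPrimitiveRoot ζ m) :
    kappaOne R hM hsep hdist hm hζ =
      kappaLamOf (kummerDataOf (thetaDataOne R hM hsep) (hD4_one R hM hsep hdist))
        (kummerDataOf_Good _ _) hm hζ := rfl

/-- the kernel of `kappaOne` is `m • Λ₁(M)`. -/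
theorem kappaOne_eq_zero_iff (R : ModReal ℂ (RingHom.id ℂ) (PmGamma1 M) W (K1L ℂ M))
    (hM : 3 ≤ M) (hsep : IsSepVar ℂ R.j (dOne M)) (hdist : Function.Injective (thetaC R))
    (hF : Fermat.Agent.Red.RiemannPkg ℂ (K1L ℂ M)) {m : ℕ} (hm : 0 < m)
    {ζ : ℂˣ} (hζ : IsPrimitiveRoot ζ m) (l : ↥(LamOf (Gamma1 M))) :
    kappaOne R hM hsep hdist hm hζ l = 0 ↔ ∃ l' : ↥(LamOf (Gamma1 M)), l = m • l' :=
  kappaLamOf_eq_zero_iff _ _ hF hm hζ l

/-- `kappaOne` takes its values in the `m`-torsion. -/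
theorem nsmul_kappaOne (R : ModReal ℂ (RingHom.id ℂ) (PmGamma1 M) W (K1L ℂ M))
    (hM : 3 ≤ M) (hsep : IsSepVar ℂ R.j (dOne M)) (hdist : Function.Injective (thetaC R))
    {m : ℕ} (hm : 0 < m) {ζ : ℂˣ} (hζ : IsPrimitiveRoot ζ m)
    (l : ↥(LamOf (Gamma1 M))) : m • kappaOne R hM hsep hdist hm hζ l = 0 :=
  nsmul_kappaLamOf _ _ hm hζ l

end Data

end Fermat.Agent.DS.Kum
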