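import Mathlib
import Fermat.Agent.Jac.NormCosetsGal
import Fermat.Agent.Jac.CorrComm
import Fermat.Agent.Jac.MerComp

/-!
# PROGRAMME III (S48), block X1-KUM, leaf KUM-2b (b2) (helper7): `H_θ`, the abstract core

Group-free and field-free form of main's `Jac/{NormCosetsGal, HThetaGal, HThetaGalReps}` (Galois
route): the Hecke product of `θ y` over a factored coset system is `θ` of the norm `Nm_α (β y)`.

Setting: `α β : K₀ →ₐ[L] K₁` two homomorphisms of fields (`α` finite), `θ : K₀ →+* MerH` and
`θ' : K₁ →+* MerH` realisations by meromorphic functions on `ℍ`, a finite family of matrices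
`rep x = g x * δ * γ x` of positive determinant such that

* `θ' ∘ β = (· ∘ δ) ∘ θ` and `(· ∘ γ x) ∘ θ' ∘ α = θ`, `(· ∘ g x) ∘ θ = θ`;
* the embeddings `(· ∘ γ x) ∘ θ' : K₁ →+* MerH` are pairwise distinct;
* `[K₁ : α K₀] ≤ card X`.

Then `∏ x, (θ y) ∘ rep x = θ (Nm_α (β y))`  (`prod_merComp_eq_theta_normAlong`).

For `X₁(M)`: `K₀ = K1L ℂ M`, `K₁ = K1LevL ℂ M p`, `δ = diag(p, 1)`, `g x, γ x ∈ Γ₁(M)`,
`rep = T1StarReps` (`DS/Kum/C/HThetaOf.lean`).
-/

set_option autoImplicit false
set_option linter.unusedSectionVars false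
set_option linter.style.haveILetI false

open AlgebraicCurve

noncomputable section

namespace Fermat.Agent.DS.Kum.HThetaCore

open Fermat.Agent.X0 (HolH MerH)
open Fermat.Agent.Jac

/-! ### Pure field theory -/

/-- A family of pairwise distinct `E`-embeddings of `F` has at most `[F : E]` members. -/
theorem card_le_finrank_of_injective {E F M : Type*} [Field E] [Field F] [Field M]
    [Algebra E F] [Algebra E M] [FiniteDimensional E F]
    {X : Type*} [Fintype X] (θ : X → F →ₐ[E] M) (hθ : Function.Injective θ) :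
    Fintype.card X ≤ Module.finrank E F := by
  classical
  haveI : Finite (F →ₐ[E] M) := Finite.algHom E F M
  rw [← Nat.card_eq_fintype_card]
  exact (Nat.card_le_card_of_injective θ hθ).trans (card_algHom_le_finrank E F M)

/-- The norm is the product over a system of pairwise distinct embeddings with at least `[F : E]`
members (which is then a full system). -/
theorem algebraMap_norm_eq_prod_of_embeddings_le {E F M : Type*} [Field E] [Field F] [Field M]
    [Algebra E F] [Algebra E M] [FiniteDimensional E F] [CharZero E]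
    {X : Type*} [Fintype X] (hX : Module.finrank E F ≤ Fintype.card X)
    (θ : X → F →ₐ[E] M) (hθ : Function.Injective θ) (f : F) :
    algebraMap E M (Algebra.norm E f) = ∏ c, θ c f :=
  HTh.algebraMap_norm_eq_prod_of_embeddings
    (le_antisymm (card_le_finrank_of_injective θ hθ) hX) θ hθ f

/-! ### The abstract `H_θ` -/

section Main

variable {L K₀ K₁ : Type*} [Field L] [Field K₀] [Field K₁] [Algebra L K₀] [Algebra L K₁]
  [CharZero K₀]

/-- **Theorem G, abstract form**: for pairwise distinct embeddings `ψ x : K₁ →+* MerH` extending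
`θ` along `α`, at least `[K₁ : α K₀]` of them: `θ (Nm_α z) = ∏ x, ψ x z`. -/
theorem theta_normAlong_eq_prod (α : K₀ →ₐ[L] K₁) (hfin : FiniteAlong L α)
    (θ : K₀ →+* MerH) {X : Type*} [Fintype X] (ψ : X → K₁ →+* MerH)
    (hψ : ∀ x y, ψ x (α y) = θ y)
    (hdist : ∀ x x', ψ x = ψ x' → x = x')
    (hdeg : finrankAlong L α ≤ Fintype.card X) (z : K₁) :
    θ (normAlong α z) = ∏ x, ψ x z := by
  letI := algebraAlong α
  letI : Algebra K₀ MerH := θ.toAlgebra
  haveI : FiniteDimensional K₀ K₁ := hfin
  let ψA : X → (K₁ →ₐ[K₀] MerH) := fun x =>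
    { ψ x with commutes' := fun y => hψ x y }
  have hψA : Function.Injective ψA := by
    intro x x' h
    apply hdist
    ext z
    exact congrArg (fun f : K₁ →ₐ[K₀] MerH => f z) h
  exact algebraMap_norm_eq_prod_of_embeddings_le hdeg ψA hψA z

/-- **`H_θ`, abstract form**: the Hecke product of `θ y` over the factored family
`rep x = g x * δ * γ x` is `θ (Nm_α (β y))`. -/
theorem prod_merComp_eq_theta_normAlong (α β : K₀ →ₐ[L] K₁) (hfin : FiniteAlong L α)
    (θ : K₀ →+* MerH) (θ' : K₁ →+* MerH)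
    {X : Type*} [Fintype X] (rep g γ : X → GL (Fin 2) ℝ) (δ : GL (Fin 2) ℝ)
    (hrep : ∀ x, rep x = g x * δ * γ x)
    (hg : ∀ x, 0 < (g x).det.val) (hγ : ∀ x, 0 < (γ x).det.val) (hδ : 0 < δ.det.val)
    (hα : ∀ x y, merComp (γ x) (θ' (α y)) = θ y)
    (hβ : ∀ y, θ' (β y) = merComp δ (θ y))
    (hinv : ∀ x y, merComp (g x) (θ y) = θ y)
    (hdist : ∀ x x', (∀ z, merComp (γ x) (θ' z) = merComp (γ x') (θ' z)) → x = x')
    (hdeg : finrankAlong L α ≤ Fintype.card X) (y : K₀) :
    ∏ x, merComp (rep x) (θ y) = θ (normAlong α (β y)) := by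
  rw [theta_normAlong_eq_prod α hfin θ (fun x => (merComp (γ x)).comp θ') hα
    (fun x x' h => hdist x x' fun z => congrArg (fun f : K₁ →+* MerH => f z) h) hdeg]
  refine Finset.prod_congr rfl fun x _ => ?_
  show merComp (rep x) (θ y) = merComp (γ x) (θ' (β y))
  rw [hβ, hrep x, mul_assoc, merComp_mul_apply (hg x) (det_mul_pos hδ (hγ x)), hinv,
    merComp_mul_apply hδ (hγ x)]

end Main

end Fermat.Agent.DS.Kum.HThetaCore
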