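import Mathlib
import Fermat.Agent.DS.Kum.C.HThetaCore
import Fermat.Agent.DS.Kum.An.KappaHeckeOf
import Fermat.Agent.DS.Kum.An.RepsOne
import Fermat.Agent.Jac.HeckeRepsDecomp
import Fermat.Agent.Jac.HTheta

/-!
# PROGRAMME III (S48), block X1-KUM, leaf KUM-2b (b2) (helper7): `H_θ` for `Γ₁(M)`

The hypothesis `HThetaOf R Nm D` of helper9's `DS/Kum/An/KappaHeckeOf.lean` (the Hecke product of
`θ y` over the coset system `D` is `θ (Nm y)`), for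

* a factored coset system of ANY `Γ ≤ SL(2,ℤ)` (`hThetaOf_of_factored`, `hThetaOf_of_stabiliser`):
  `D.rep i = g_i · δ · γ_i` with `g_i, γ_i ∈ Γ`, two homomorphisms `α β : F →ₐ[ℂ] F'`, a realisation
  `θ' : F' →+* MerH` with `θ' ∘ α = θ`, `θ' ∘ β = (· ∘ δ) ∘ θ`, whose stabiliser in `Γ` is
  conjugated into `Γ` by `δ`, and `[F' : α F] ≤ card ι`: `Nm = Nm_α ∘ β`;
* `Γ = Γ₁(M)`, `p ∤ M` prime: `T1StarReps` (`hThetaOf_T1StarReps`, `Nm = Nm_α ∘ β`),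
  `T1Reps` (`hThetaOf_T1Reps`, `Nm = Nm_α ∘ β ∘ ⟨σ⟩`), the diamond systems `diamondReps M δ`
  (`hThetaOf_diamondReps`).

The named inputs for `X₁(M)` are: the realisation `θ'` of the level-`(M;p)` field with its values
on `α`, `β` (helper22's `PsiLev`), its stabiliser in `Γ₁(M)` (`⊆ Γ₀(p)`), and the degree bound
`[K1LevL ℂ M p : α (K1L ℂ M)] ≤ p + 1` (helper15's `LevDegree`).
-/

set_option autoImplicit false
set_option linter.unusedSectionVars false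
set_option linter.style.haveILetI false

open UpperHalfPlane ModularForm CongruenceSubgroup Matrix.SpecialLinearGroup AlgebraicCurve
open scoped MatrixGroups Manifold
open P2MW.S_ModularForm_heckeT_slash_eq_self_of_mem_Gamma0.ModularForm.HeckeSlashInvariance

noncomputable section

namespace Fermat.Agent.DS.Kum

open Fermat.Agent.Jac Fermat.Agent.Red
open Fermat.Agent.X0 (HolH MerH)

/-! ### Any `Γ` -/

section Generic

variable {Γ : Subgroup SL(2, ℤ)} {F F' : Type*} [Field F] [Algebra ℂ F] [Field F'] [Algebra ℂ F']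
  {ι : Type*} [Fintype ι]

/-- `θ y` is invariant under composition with `γ ∈ Γ`. -/
theorem ThetaData.merComp_embOf_θ (R : ThetaData Γ F) (γ : ↥Γ) (y : F) :
    merComp (embOf Γ γ) (R.θ y) = R.θ y := by
  have h := R.smul_θ γ⁻¹ y
  rw [subgroup_smul_eq_merCompOf, inv_inv] at h
  exact h

theorem det_embOf_pos (γ : ↥Γ) : 0 < (embOf Γ γ).det.val := det_mapGL_pos _

/-- **`H_θ` for a factored coset system** (distinctness of the conjugate realisations as a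
hypothesis). -/
theorem hThetaOf_of_factored (R : ThetaData Γ F) (α β : F →ₐ[ℂ] F') (hfin : FiniteAlong ℂ α)
    (θ' : F' →+* MerH) (D : CosetReps (embOf Γ) ι) (δ : GL (Fin 2) ℝ) (hδ : 0 < δ.det.val)
    (g γ : ι → ↥Γ) (hrep : ∀ i, D.rep i = embOf Γ (g i) * δ * embOf Γ (γ i))
    (hα : ∀ y, θ' (α y) = R.θ y) (hβ : ∀ y, θ' (β y) = merComp δ (R.θ y))
    (hdist : ∀ i i', (∀ z, merComp (embOf Γ (γ i)) (θ' z) = merComp (embOf Γ (γ i')) (θ' z)) →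
      i = i')
    (hdeg : finrankAlong ℂ α ≤ Fintype.card ι) :
    HThetaOf R (fun y => normAlong α (β y)) D := by
  haveI : CharZero F := charZero_of_injective_algebraMap (algebraMap ℂ F).injective
  intro y _
  rw [heckeProdMerOf_apply]
  exact HThetaCore.prod_merComp_eq_theta_normAlong α β hfin R.θ θ' D.rep
    (fun i => embOf Γ (g i)) (fun i => embOf Γ (γ i)) δ hrep (fun i => det_embOf_pos _)
    (fun i => det_embOf_pos _) hδ (fun i y => by rw [hα, R.merComp_embOf_θ])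
    hβ (fun i y => R.merComp_embOf_θ _ y) hdist hdeg y

/-- **`H_θ` for a factored coset system**: the distinctness comes from `D.distinct` as soon as the
stabiliser of `θ'` in `Γ` is conjugated into `Γ` by `δ`. -/
theorem hThetaOf_of_stabiliser (R : ThetaData Γ F) (α β : F →ₐ[ℂ] F') (hfin : FiniteAlong ℂ α)
    (θ' : F' →+* MerH) (D : CosetReps (embOf Γ) ι) (δ : GL (Fin 2) ℝ) (hδ : 0 < δ.det.val)
    (g γ : ι → ↥Γ) (hrep : ∀ i, D.rep i = embOf Γ (g i) * δ * embOf Γ (γ i))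
    (hα : ∀ y, θ' (α y) = R.θ y) (hβ : ∀ y, θ' (β y) = merComp δ (R.θ y))
    (hstab : ∀ κ : ↥Γ, (∀ z, merComp (embOf Γ κ) (θ' z) = θ' z) →
      ∃ κ' : ↥Γ, δ * embOf Γ κ = embOf Γ κ' * δ)
    (hdeg : finrankAlong ℂ α ≤ Fintype.card ι) :
    HThetaOf R (fun y => normAlong α (β y)) D := by
  refine hThetaOf_of_factored R α β hfin θ' D δ hδ g γ hrep hα hβ (fun i i' h => ?_) hdeg
  -- `κ = γ_i γ_{i'}⁻¹` stabilises `θ'`
  have hκ : ∀ z, merComp (embOf Γ (γ i * (γ i')⁻¹)) (θ' z) = θ' z := by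
    intro z
    rw [map_mul, merComp_mul_apply (det_embOf_pos _) (det_embOf_pos _), h z,
      ← merComp_mul_apply (det_embOf_pos _) (det_embOf_pos _), ← map_mul, mul_inv_cancel,
      map_one, merComp_one]
    rfl
  obtain ⟨κ', hκ'⟩ := hstab _ hκ
  refine D.distinct i i' (g i * κ' * (g i')⁻¹) ?_
  rw [hrep i, hrep i', map_mul, map_mul, map_inv]
  have h1 : embOf Γ (γ i) = embOf Γ (γ i * (γ i')⁻¹) * embOf Γ (γ i') := by
    rw [← map_mul, inv_mul_cancel_right]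
  rw [h1]
  calc embOf Γ (g i) * δ * (embOf Γ (γ i * (γ i')⁻¹) * embOf Γ (γ i'))
      = embOf Γ (g i) * (δ * embOf Γ (γ i * (γ i')⁻¹)) * embOf Γ (γ i') := by group
    _ = embOf Γ (g i) * (embOf Γ κ' * δ) * embOf Γ (γ i') := by rw [hκ']
    _ = embOf Γ (g i) * embOf Γ κ' * (embOf Γ (g i'))⁻¹ *
          (embOf Γ (g i') * δ * embOf Γ (γ i')) := by group

/-- A left translate of a coset system by a matrix normalising `Γ`: the Hecke product is the Hecke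
product of the translate by `w`. -/
theorem heckeProdMerOf_leftMul (D : CosetReps (embOf Γ) ι) (a : ↥Γ ≃* ↥Γ) (w : GL (Fin 2) ℝ)
    (haw : ∀ γ, embOf Γ (a γ) = w * embOf Γ γ * w⁻¹) (hw : 0 < w.det.val)
    (hD : ∀ i, 0 < (D.rep i).det.val) (G : MerH) :
    heckeProdMerOf (D.leftMul a w haw) G = heckeProdMerOf D (merComp w G) := by
  rw [heckeProdMerOf_apply, heckeProdMerOf_apply]
  refine Finset.prod_congr rfl fun i _ => ?_
  rw [leftMul_rep, merComp_mul_apply hw (hD i)]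

/-- **`H_θ` for a one-element coset system** (diamond operators). -/
theorem hThetaOf_single (R : ThetaData Γ F) (a : ↥Γ ≃* ↥Γ) (w : GL (Fin 2) ℝ)
    (haw : ∀ γ, embOf Γ (a γ) = w * embOf Γ γ * w⁻¹) (d : F → F)
    (hd : ∀ y, merComp w (R.θ y) = R.θ (d y)) :
    HThetaOf R d (CosetReps.single (embOf_injective Γ) a w haw) := by
  intro y _
  rw [heckeProdMerOf_apply, Finset.prod_eq_single_of_mem () (Finset.mem_univ _)
    (fun b _ hb => absurd (Subsingleton.elim b ()) hb), single_rep]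
  exact hd y

end Generic

/-! ### `Γ₁(M)` -/

section GammaOne

variable (M : ℕ) {p : ℕ}

/-- An element of `Γ₁(M)` from its entries. -/
def mkGamma1 (a b c d : ℤ) (h : a * d - b * c = 1) (ha : (M : ℤ) ∣ a - 1) (hd : (M : ℤ) ∣ d - 1)
    (hc : (M : ℤ) ∣ c) : ↥(Gamma1 M) :=
  ⟨mkSL a b c d h, by
    rw [Gamma1_mem, mkSL_zero_zero, mkSL_one_one, mkSL_one_zero]
    refine ⟨?_, ?_, (ZMod.intCast_zmod_eq_zero_iff_dvd _ _).mpr hc⟩
    · have := (ZMod.intCast_zmod_eq_zero_iff_dvd _ _).mpr ha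
      push_cast at this
      exact sub_eq_zero.mp this
    · have := (ZMod.intCast_zmod_eq_zero_iff_dvd _ _).mpr hd
      push_cast at this
      exact sub_eq_zero.mp this⟩

theorem val_embOf_mkGamma1 (a b c d : ℤ) (h : a * d - b * c = 1) (ha : (M : ℤ) ∣ a - 1)
    (hd : (M : ℤ) ∣ d - 1) (hc : (M : ℤ) ∣ c) :
    ((embOf (Gamma1 M) (mkGamma1 M a b c d h ha hd hc) : GL (Fin 2) ℝ) :
        Matrix (Fin 2) (Fin 2) ℝ) = !![(a : ℝ), (b : ℝ); (c : ℝ), (d : ℝ)] := by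
  rw [embOf_apply, val_mapGL]
  rfl

/-- `diag(p,1) κ = κ' diag(p,1)` with `κ' ∈ Γ₁(M)` for `κ ∈ Γ₁(M) ∩ Γ₀(p)`, `p ∤ M`. -/
theorem exists_heckeDiagMatrix_mul_embOf (hp : p.Prime) (hpM : ¬ p ∣ M) (κ : ↥(Gamma1 M))
    (hκ : (κ : SL(2, ℤ)) ∈ Gamma0 p) :
    ∃ κ' : ↥(Gamma1 M),
      heckeDiagMatrix p * embOf (Gamma1 M) κ = embOf (Gamma1 M) κ' * heckeDiagMatrix p := by
  have hκ1 := (Gamma1_mem M _).mp κ.2
  have hcp : ((p : ℕ) : ℤ) ∣ (κ : SL(2, ℤ)) 1 0 :=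
    (ZMod.intCast_zmod_eq_zero_iff_dvd _ _).mp (Gamma0_mem.mp hκ)
  have hcM : ((M : ℕ) : ℤ) ∣ (κ : SL(2, ℤ)) 1 0 :=
    (ZMod.intCast_zmod_eq_zero_iff_dvd _ _).mp hκ1.2.2
  obtain ⟨c₀, hc₀⟩ := hcp
  have hcop : IsCoprime (M : ℤ) (p : ℤ) := by
    rw [Int.isCoprime_iff_gcd_eq_one, Int.gcd_natCast_natCast, Nat.gcd_comm]
    exact (Nat.Prime.coprime_iff_not_dvd hp).mpr hpM
  have hMc₀ : (M : ℤ) ∣ c₀ := hcop.dvd_of_dvd_mul_left (hc₀ ▸ hcM)
  have hdet : (κ : SL(2, ℤ)) 0 0 * (κ : SL(2, ℤ)) 1 1 - (κ : SL(2, ℤ)) 0 1 * (κ : SL(2, ℤ)) 1 0 = 1 := by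
    have := Matrix.SpecialLinearGroup.det_coe (κ : SL(2, ℤ))
    rw [Matrix.det_fin_two] at this
    exact this
  have hdet' : (κ : SL(2, ℤ)) 0 0 * (κ : SL(2, ℤ)) 1 1 - ((p : ℤ) * (κ : SL(2, ℤ)) 0 1) * c₀ = 1 := by
    linear_combination hdet + (κ : SL(2, ℤ)) 0 1 * hc₀
  have ha : (M : ℤ) ∣ (κ : SL(2, ℤ)) 0 0 - 1 := by
    rw [← ZMod.intCast_zmod_eq_zero_iff_dvd]
    push_cast
    rw [hκ1.1, sub_self]
  have hd : (M : ℤ) ∣ (κ : SL(2, ℤ)) 1 1 - 1 := by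
    rw [← ZMod.intCast_zmod_eq_zero_iff_dvd]
    push_cast
    rw [hκ1.2.1, sub_self]
  refine ⟨mkGamma1 M ((κ : SL(2, ℤ)) 0 0) ((p : ℤ) * (κ : SL(2, ℤ)) 0 1) c₀ ((κ : SL(2, ℤ)) 1 1)
    hdet' ha hd hMc₀, ?_⟩
  refine gl_ext_of_val
    (val_mul_fin_two (val_heckeDiagMatrix hp.ne_zero) (by rw [embOf_apply]; exact val_mapGL _))
    (val_mul_fin_two (val_embOf_mkGamma1 M _ _ _ _ _ _ _ _) (val_heckeDiagMatrix hp.ne_zero))
    ?_ ?_ ?_ ?_
  · ring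
  · push_cast; ring
  · rw [hc₀]; push_cast; ring
  · ring

/-- **Double coset decomposition of the representatives of `T_p^*` on `Γ₁(M)`**:
`σ⁻¹ [1, j; 0, p]` and `diag(p,1)` lie in `Γ₁(M) diag(p,1) Γ₁(M)`. -/
theorem T1StarReps_decomp_full (hp : p.Prime) (hpM : ¬ p ∣ M) (σ : ↥(Gamma0 M))
    (hσ : Gamma0Map M σ = (p : ZMod M)) (x : OnePoint (ZMod p)) :
    ∃ g γ : ↥(Gamma1 M), (T1StarReps M hp hpM σ hσ).rep x =
      embOf (Gamma1 M) g * heckeDiagMatrix p * embOf (Gamma1 M) γ := by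
  induction x using OnePoint.rec with
  | infty =>
    refine ⟨1, 1, ?_⟩
    rw [T1StarReps_rep_infty, map_one, one_mul, mul_one]
  | coe j =>
    have hcop : IsCoprime (p : ℤ) (M : ℤ) := by
      rw [Int.isCoprime_iff_gcd_eq_one, Int.gcd_natCast_natCast]
      exact (Nat.Prime.coprime_iff_not_dvd hp).mpr hpM
    obtain ⟨a, b, hab⟩ := hcop
    have h : (p : ℤ) * a - (-b) * M = 1 := by linear_combination hab
    -- main's identity `[p, q; M, s] * [1, j; 0, p] = diag(p, 1) * [1, j + q; M, M j + s p]`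
    have h' : (1 : ℤ) * (M * j.val + a * p) - (j.val + -b) * M = 1 := by linear_combination h
    have key : embG M (RepsDecomp.mkGamma0 M p (-b) M a h (dvd_refl _)) * heckeMatrix p j.val =
        heckeDiagMatrix p *
          embG M (RepsDecomp.mkGamma0 M 1 (j.val + -b) M (M * j.val + a * p) h' (dvd_refl _)) :=
      RepsDecomp.mul_heckeMatrix_eq M hp.ne_zero j.val a (-b) h
    set τ : ↥(Gamma0 M) := RepsDecomp.mkGamma0 M p (-b) M a h (dvd_refl _) with hτ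
    set γ₀ : ↥(Gamma0 M) := RepsDecomp.mkGamma0 M 1 (j.val + -b) M (M * j.val + a * p)
      h' (dvd_refl _) with hγ₀
    -- `γ₀ ∈ Γ₁(M)`
    have hγ₀1 : (γ₀ : SL(2, ℤ)) ∈ Gamma1 M := by
      rw [mem_Gamma1_iff_of_mem_Gamma0 M γ₀.2]
      show (((mkSL 1 (j.val + -b) M (M * j.val + a * p) h') 1 1 : ℤ) : ZMod M) = 1
      rw [mkSL_one_one]
      have : (M : ℤ) ∣ (M * j.val + a * p) - 1 := ⟨j.val - b, by linear_combination hab⟩
      have h2 := (ZMod.intCast_zmod_eq_zero_iff_dvd _ _).mpr this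
      push_cast at h2 ⊢
      exact sub_eq_zero.mp h2
    -- `σ⁻¹ τ⁻¹ ∈ Γ₁(M)`
    have hτmap : Gamma0Map M τ * (p : ZMod M) = 1 := by
      show ((((mkSL (p : ℤ) (-b) M a h) 1 1 : ℤ)) : ZMod M) * (p : ZMod M) = 1
      rw [mkSL_one_one]
      have : (M : ℤ) ∣ a * p - 1 := ⟨-b, by linear_combination hab⟩
      have h2 := (ZMod.intCast_zmod_eq_zero_iff_dvd _ _).mpr this
      push_cast at h2
      exact sub_eq_zero.mp h2
    have hg1 : ((σ⁻¹ * τ⁻¹ : ↥(Gamma0 M)) : SL(2, ℤ)) ∈ Gamma1 M := by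
      rw [← gamma0Map_eq_one_iff]
      have h3 : Gamma0Map M (σ⁻¹ * τ⁻¹) * (Gamma0Map M τ * Gamma0Map M σ) = 1 := by
        rw [← map_mul, ← map_mul]
        simp
      rw [hσ, hτmap, mul_one] at h3
      exact h3
    refine ⟨⟨_, hg1⟩, ⟨_, hγ₀1⟩, ?_⟩
    rw [T1StarReps_rep_coe]
    have key' : heckeMatrix p j.val = (embG M τ)⁻¹ * (heckeDiagMatrix p * embG M γ₀) := by
      rw [← key, inv_mul_cancel_left]
    rw [key']
    show (mapGL ℝ (σ : SL(2, ℤ)))⁻¹ * ((mapGL ℝ (τ : SL(2, ℤ)))⁻¹ *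
        (heckeDiagMatrix p * mapGL ℝ (γ₀ : SL(2, ℤ)))) =
      mapGL ℝ ((σ⁻¹ * τ⁻¹ : ↥(Gamma0 M)) : SL(2, ℤ)) * heckeDiagMatrix p *
        mapGL ℝ (γ₀ : SL(2, ℤ))
    rw [Subgroup.coe_mul, Subgroup.coe_inv, Subgroup.coe_inv, map_mul, map_inv, map_inv]
    group

variable {F F' : Type*} [Field F] [Algebra ℂ F] [Field F'] [Algebra ℂ F']

/-- **`H_θ` for `T_p^*` on `Γ₁(M)`, `p ∤ M`**: `∏ (θ y) ∘ δ_x = θ (Nm_α (β y))` over the coset
system of `Γ₁(M) diag(p,1) Γ₁(M)`. -/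
theorem hThetaOf_T1StarReps [NeZero p] (hp : p.Prime) (hpM : ¬ p ∣ M) (σ : ↥(Gamma0 M))
    (hσ : Gamma0Map M σ = (p : ZMod M)) (R : ThetaData (Gamma1 M) F) (α β : F →ₐ[ℂ] F')
    (hfin : FiniteAlong ℂ α) (θ' : F' →+* MerH)
    (hα : ∀ y, θ' (α y) = R.θ y)
    (hβ : ∀ y, θ' (β y) = merComp (heckeDiagMatrix p) (R.θ y))
    (hstab : ∀ κ : ↥(Gamma1 M), (∀ z, merComp (embOf (Gamma1 M) κ) (θ' z) = θ' z) →
      (κ : SL(2, ℤ)) ∈ Gamma0 p)
    (hdeg : finrankAlong ℂ α ≤ p + 1) :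
    HThetaOf R (fun y => normAlong α (β y)) (T1StarReps M hp hpM σ hσ) := by
  choose g γ hrep using T1StarReps_decomp_full M hp hpM σ hσ
  refine hThetaOf_of_stabiliser R α β hfin θ' _ (heckeDiagMatrix p)
    (HTheta.det_heckeDiagMatrix_pos p) g γ hrep hα hβ
    (fun κ hκ => exists_heckeDiagMatrix_mul_embOf M hp hpM κ (hstab κ hκ)) ?_
  rw [RepsDecomp.card_onePoint_zmod]
  exact hdeg

/-- **`H_θ` for `T_p` on `Γ₁(M)`, `p ∤ M`**: over the coset system of `Γ₁(M) diag(1,p) Γ₁(M)` the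
Hecke product realises `Nm_α ∘ β ∘ ⟨σ⟩`, where `⟨σ⟩ : F → F` realises composition with `σ`. -/
theorem hThetaOf_T1Reps [NeZero p] (hp : p.Prime) (hpM : ¬ p ∣ M) (σ : ↥(Gamma0 M))
    (hσ : Gamma0Map M σ = (p : ZMod M)) (R : ThetaData (Gamma1 M) F) (α β : F →ₐ[ℂ] F')
    (hfin : FiniteAlong ℂ α) (θ' : F' →+* MerH)
    (hα : ∀ y, θ' (α y) = R.θ y)
    (hβ : ∀ y, θ' (β y) = merComp (heckeDiagMatrix p) (R.θ y))
    (hstab : ∀ κ : ↥(Gamma1 M), (∀ z, merComp (embOf (Gamma1 M) κ) (θ' z) = θ' z) →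
      (κ : SL(2, ℤ)) ∈ Gamma0 p)
    (hdeg : finrankAlong ℂ α ≤ p + 1)
    (d : F → F) (hd0 : ∀ y, y ≠ 0 → d y ≠ 0)
    (hd : ∀ y, merComp (mapGL ℝ (σ : SL(2, ℤ))) (R.θ y) = R.θ (d y)) :
    HThetaOf R (fun y => normAlong α (β (d y))) (T1Reps M hp hpM σ hσ) := by
  intro y hy
  have hstar := hThetaOf_T1StarReps M hp hpM σ hσ R α β hfin θ' hα hβ hstab hdeg (d y) (hd0 y hy)
  have hpos : ∀ x, 0 < ((T1StarReps M hp hpM σ hσ).rep x).det.val :=
    (T1StarReps_isRatPosOf M hp hpM σ hσ).pos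
  -- `T1Reps = σ · T1StarReps`
  have hrep : ∀ x, (T1Reps M hp hpM σ hσ).rep x =
      mapGL ℝ (σ : SL(2, ℤ)) * (T1StarReps M hp hpM σ hσ).rep x := by
    intro x
    show _ = mapGL ℝ (σ : SL(2, ℤ)) *
      (mapGL ℝ ((σ⁻¹ : ↥(Gamma0 M)) : SL(2, ℤ)) * (T1Reps M hp hpM σ hσ).rep x)
    rw [Subgroup.coe_inv, map_inv, mul_inv_cancel_left]
  rw [heckeProdMerOf_apply] at hstar ⊢
  rw [← hstar]
  refine Finset.prod_congr rfl fun x _ => ?_
  rw [hrep x, merComp_mul_apply (det_mapGL_pos _) (hpos x), hd]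

/-- **`H_θ` for the diamond operators on `Γ₁(M)`.** -/
theorem hThetaOf_diamondReps (δ : ↥(Gamma0 M)) (R : ThetaData (Gamma1 M) F) (d : F → F)
    (hd : ∀ y, merComp (mapGL ℝ (δ : SL(2, ℤ))) (R.θ y) = R.θ (d y)) :
    HThetaOf R d (diamondReps M δ) :=
  hThetaOf_single R _ _ _ d hd

end GammaOne

end Fermat.Agent.DS.Kum
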