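import Mathlib
import Fermat.Agent.DS.Kum.C.D4Of
import Fermat.Agent.Jac.HTheta
import Fermat.Agent.X0.QExpGamma
import Fermat.Agent.DS.Kum.TransferGen

/-!
# PROGRAMME III (S48), block X1-KUM, leaf KUM-2b (b2) (helper7): the realisation side of `H_θ`

From RING-level (generator-level) facts about two analytic realisations to the three inputs
`hα`, `hβ`, `hstab` of `hThetaOf_T1StarReps` / `kappaLamOf_T1Lam_star_of_stabiliser`
(`DS/Kum/C/{HThetaOf, KappaOneStab}.lean`).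

Setting: `θ₀ : R →+* (ℍ → ℂ)`, `θ₀' : R' →+* (ℍ → ℂ)` injective with holomorphic values, `F`, `F'`
the fraction fields, `φ : F →+* F'`.

* `merHom_comp_eq_merComp` : if `φ` maps `R` into `R'` and `θ₀' (φ r) = θ₀ r ∘ g` (`det g > 0`) then
  `merHom θ₀' (φ y) = merComp g (merHom θ₀ y)` for all `y : F`;
* `merHom_comp_eq` (`g = 1`) and `merHom_comp_eq_scale` (`g = diag(p, 1)`, `θ₀ r ∘ scaleH p`);
* `mem_Gamma0_of_merComp_merHom_eq` : if `θ₀' r' = j (N ·)` and `merHom θ₀' r'` is fixed by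
  composition with `κ ∈ SL(2,ℤ)` then `κ ∈ Γ₀(N)`.

The same for helper6's `ModReal` and helper29's `thetaMerOf` (`thetaMerOf_comp_eq`,
`thetaMerOf_comp_scale`, `mem_Gamma0_of_fixes_thetaMerOf`, `hstab_of_thetaMerOf`).
-/

set_option autoImplicit false
set_option linter.unusedSectionVars false
set_option linter.style.haveILetI false

open UpperHalfPlane ModularForm CongruenceSubgroup Matrix.SpecialLinearGroup
open scoped MatrixGroups Manifold
open P2MW.S_ModularForm_heckeT_slash_eq_self_of_mem_Gamma0.ModularForm.HeckeSlashInvariance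

noncomputable section

namespace Fermat.Agent.DS.Kum

open Fermat.Agent.Jac Fermat.Agent.X0 Fermat.Agent.DS.X1.Places
open Fermat.Agent.S23.PrimEltQExp (scaleH coe_scaleH)

/-! ### Ring homomorphisms into `MerH` extended from subrings -/

section MerHom

variable {R F R' F' : Type*} [CommRing R] [IsDomain R] [Field F] [Algebra R F]
  [IsFractionRing R F] [CommRing R'] [IsDomain R'] [Field F'] [Algebra R' F']
  [IsFractionRing R' F']

/-- **(AB)** If `φ : F →+* F'` maps `R` into `R'` and `θ₀' (φ r) = (θ₀ r) ∘ g` on `R`, then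
`merHom θ₀' ∘ φ = (· ∘ g) ∘ merHom θ₀` on `F`. -/
theorem merHom_comp_eq_merComp (θ₀ : R →+* (ℍ → ℂ)) (hinj : Function.Injective θ₀)
    (hhol : ∀ r, MDifferentiable 𝓘(ℂ) 𝓘(ℂ) (θ₀ r))
    (θ₀' : R' →+* (ℍ → ℂ)) (hinj' : Function.Injective θ₀')
    (hhol' : ∀ r, MDifferentiable 𝓘(ℂ) 𝓘(ℂ) (θ₀' r))
    (φ : F →+* F') (g : GL (Fin 2) ℝ) (hg : 0 < g.det.val)
    (h : ∀ r : R, ∃ r' : R', algebraMap R' F' r' = φ (algebraMap R F r) ∧
      ∀ z, θ₀' r' z = θ₀ r (g • z)) (y : F) :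
    merHom (F := F') θ₀' hinj' hhol' (φ y) = merComp g (merHom (F := F) θ₀ hinj hhol y) := by
  have key : (merHom (F := F') θ₀' hinj' hhol').comp φ =
      (merComp g).comp (merHom (F := F) θ₀ hinj hhol) := by
    refine IsLocalization.ringHom_ext (nonZeroDivisors R) ?_
    ext r
    obtain ⟨r', hr', hz⟩ := h r
    simp only [RingHom.comp_apply]
    rw [← hr', merHom_algebraMap, merHom_algebraMap, merComp_algebraMap]
    congr 1
    apply Subtype.ext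
    funext z
    rw [coe_holComp hg, coe_holHom, coe_holHom]
    exact hz z
  exact congrArg (fun f : F →+* MerH => f y) key

/-- **(A)** `g = 1`. -/
theorem merHom_comp_eq (θ₀ : R →+* (ℍ → ℂ)) (hinj : Function.Injective θ₀)
    (hhol : ∀ r, MDifferentiable 𝓘(ℂ) 𝓘(ℂ) (θ₀ r))
    (θ₀' : R' →+* (ℍ → ℂ)) (hinj' : Function.Injective θ₀')
    (hhol' : ∀ r, MDifferentiable 𝓘(ℂ) 𝓘(ℂ) (θ₀' r))
    (φ : F →+* F')
    (h : ∀ r : R, ∃ r' : R', algebraMap R' F' r' = φ (algebraMap R F r) ∧ θ₀' r' = θ₀ r)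
    (y : F) :
    merHom (F := F') θ₀' hinj' hhol' (φ y) = merHom (F := F) θ₀ hinj hhol y := by
  have h1 : 0 < (1 : GL (Fin 2) ℝ).det.val := by simp
  rw [merHom_comp_eq_merComp θ₀ hinj hhol θ₀' hinj' hhol' φ 1 h1 (fun r => by
    obtain ⟨r', hr', hz⟩ := h r
    exact ⟨r', hr', fun z => by rw [one_smul, hz]⟩) y, merComp_one]
  rfl

theorem heckeDiagMatrix_smul_eq_scaleH (p : ℕ) [NeZero p] (z : ℍ) :
    heckeDiagMatrix p • z = scaleH p z := by
  apply UpperHalfPlane.ext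
  rw [HTheta.coe_heckeDiagMatrix_smul, coe_scaleH]

/-- **(B)** `g = diag(p, 1)`: `θ₀' (φ r) = z ↦ θ₀ r (p z)`. -/
theorem merHom_comp_eq_scale (p : ℕ) [NeZero p] (θ₀ : R →+* (ℍ → ℂ))
    (hinj : Function.Injective θ₀) (hhol : ∀ r, MDifferentiable 𝓘(ℂ) 𝓘(ℂ) (θ₀ r))
    (θ₀' : R' →+* (ℍ → ℂ)) (hinj' : Function.Injective θ₀')
    (hhol' : ∀ r, MDifferentiable 𝓘(ℂ) 𝓘(ℂ) (θ₀' r))
    (φ : F →+* F')
    (h : ∀ r : R, ∃ r' : R', algebraMap R' F' r' = φ (algebraMap R F r) ∧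
      ∀ z, θ₀' r' z = θ₀ r (scaleH p z)) (y : F) :
    merHom (F := F') θ₀' hinj' hhol' (φ y) =
      merComp (heckeDiagMatrix p) (merHom (F := F) θ₀ hinj hhol y) :=
  merHom_comp_eq_merComp θ₀ hinj hhol θ₀' hinj' hhol' φ (heckeDiagMatrix p)
    (HTheta.det_heckeDiagMatrix_pos p) (fun r => by
      obtain ⟨r', hr', hz⟩ := h r
      exact ⟨r', hr', fun z => by rw [heckeDiagMatrix_smul_eq_scaleH, hz]⟩) y

/-- **(C)** If `θ₀' r' = j (N ·)` and the realisation of `r'` is fixed by composition with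
`κ ∈ SL(2,ℤ)`, then `κ ∈ Γ₀(N)`. -/
theorem mem_Gamma0_of_merComp_merHom_eq (N : ℕ) [NeZero N] (θ₀' : R' →+* (ℍ → ℂ))
    (hinj' : Function.Injective θ₀') (hhol' : ∀ r, MDifferentiable 𝓘(ℂ) 𝓘(ℂ) (θ₀' r))
    (r' : R') (hr' : θ₀' r' = fun z => jFun (scaleH N z)) (κ : SL(2, ℤ))
    (hκ : merComp (mapGL ℝ κ) (merHom (F := F') θ₀' hinj' hhol' (algebraMap R' F' r')) =
      merHom (F := F') θ₀' hinj' hhol' (algebraMap R' F' r')) :
    κ ∈ Gamma0 N := by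
  rw [merHom_algebraMap, merComp_algebraMap] at hκ
  have h2 := IsFractionRing.injective HolH MerH hκ
  apply mem_Gamma0_of_jFun_scaleH_smul_eq
  intro z
  have h3 := congrArg (fun f : HolH => (f : ℍ → ℂ) z) h2
  simp only [coe_holComp (det_mapGL_pos κ), coe_holHom, hr'] at h3
  exact h3

end MerHom

/-! ### The same for `ModReal` / `thetaMerOf` -/

section ModRealForm

variable {K K' : Type*} [Field K] [Field K'] {ι : K →+* ℂ} {ι' : K' →+* ℂ}
  {Γ Γ' : Subgroup SL(2, ℤ)} {W W' : ℕ}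
  {F F' : Type*} [Field F] [Algebra K F] [Field F'] [Algebra K' F']

/-- **`hα`**: `θ' ∘ φ = θ` from the ring-level identity. -/
theorem thetaMerOf_comp_eq (D : ModReal K ι Γ W F) (D' : ModReal K' ι' Γ' W' F') (φ : F →+* F')
    (h : ∀ r : D.R, ∃ r' : D'.R, ((r' : D'.R) : F') = φ ((r : D.R) : F) ∧ D'.θ r' = D.θ r)
    (y : F) : thetaMerOf D' (φ y) = thetaMerOf D y :=
  merHom_comp_eq D.θ D.θ_inj D.θ_mdiff D'.θ D'.θ_inj D'.θ_mdiff φ h y

/-- **`hβ`**: `θ' ∘ φ = (· ∘ diag(p,1)) ∘ θ` from the ring-level identity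
`θ' (φ r) = z ↦ θ r (p z)`. -/
theorem thetaMerOf_comp_scale (p : ℕ) [NeZero p] (D : ModReal K ι Γ W F)
    (D' : ModReal K' ι' Γ' W' F') (φ : F →+* F')
    (h : ∀ r : D.R, ∃ r' : D'.R, ((r' : D'.R) : F') = φ ((r : D.R) : F) ∧
      ∀ z, D'.θ r' z = D.θ r (scaleH p z))
    (y : F) : thetaMerOf D' (φ y) = merComp (heckeDiagMatrix p) (thetaMerOf D y) :=
  merHom_comp_eq_scale p D.θ D.θ_inj D.θ_mdiff D'.θ D'.θ_inj D'.θ_mdiff φ h y

/-- If `j (N ·)` is realised in `D'.R`, every `κ ∈ SL(2,ℤ)` fixing `thetaMerOf D'` lies in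
`Γ₀(N)`. -/
theorem mem_Gamma0_of_fixes_thetaMerOf (N : ℕ) [NeZero N] (D' : ModReal K' ι' Γ' W' F')
    (r' : D'.R) (hr' : D'.θ r' = fun z => jFun (scaleH N z)) (κ : SL(2, ℤ))
    (hκ : ∀ z : F', merComp (mapGL ℝ κ) (thetaMerOf D' z) = thetaMerOf D' z) :
    κ ∈ Gamma0 N :=
  mem_Gamma0_of_merComp_merHom_eq N D'.θ D'.θ_inj D'.θ_mdiff r' hr' κ (hκ _)

/-- **`hstab`** in the literal of `hThetaOf_T1StarReps`. -/
theorem hstab_of_thetaMerOf (N : ℕ) [NeZero N] (Δ : Subgroup SL(2, ℤ))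
    (D' : ModReal K' ι' Γ' W' F')
    (r' : D'.R) (hr' : D'.θ r' = fun z => jFun (scaleH N z)) (κ : ↥Δ)
    (hκ : ∀ z : F', merComp (embOf Δ κ) (thetaMerOf D' z) = thetaMerOf D' z) :
    (κ : SL(2, ℤ)) ∈ Gamma0 N :=
  mem_Gamma0_of_fixes_thetaMerOf N D' r' hr' (κ : SL(2, ℤ)) hκ

end ModRealForm

end Fermat.Agent.DS.Kum
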