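import Mathlib
import Fermat.Agent.DS.Kum.C.KummerOne
import Fermat.Agent.DS.X1.K1PlacesC

/-!
# PROGRAMME III (S48), block X1-KUM, leaf KUM-2 (R4), the instance (helper28): the complex Kummer
data and the Kummer homomorphism of `Γ₁(M)` from the analytic data `WeberCuspData M` ALONE

`KummerOne.lean` (hypothesis form) applied to helper29's `ℂ`-instance `K1PlacesC.lean`
(`modRealK1C D`, `isSepVar_K1C_dOne`, `thetaC_modRealK1C_injective`, `riemannPkg_K1C_of_data`).

* `thetaDataOneW D hM : ThetaData (Gamma1 M) (K1L ℂ M)`;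
* `hD4_oneW D hM : HD4Of (Gamma1 M) (thetaDataOneW D hM).θ`;
* `kummerDataOneW D hM : KummerData ℂ (K1L ℂ M) MerH ↥(Gamma1 M)`;
* `kappaOneW D hM hm hζ : ↥(LamOf (Gamma1 M)) →+ Pic0 ℂ (K1L ℂ M)`, with kernel `m • Λ₁(M)`
  (`kappaOneW_eq_zero_iff`, unconditional) and values in the `m`-torsion (`nsmul_kappaOneW`).
-/

set_option autoImplicit false
set_option linter.unusedSectionVars false
set_option linter.style.haveILetI false

open UpperHalfPlane ModularForm CongruenceSubgroup AlgebraicCurve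

open scoped MatrixGroups Manifold ModularForm

noncomputable section

namespace Fermat.Agent.DS.Kum

open Fermat.Agent.Jac Fermat.Agent.DS.X1 Fermat.Agent.DS.X1.Places Fermat.Agent.DS.X1Hecke
open Fermat.Agent.X0 (MerH IsSepVar)

variable {M : ℕ} [NeZero M]

/-- **The realisation of `ℂ(X₁(M))`** from the analytic Weber data. -/
def thetaDataOneW (D : WeberCuspData M) (hM : 3 ≤ M) : ThetaData (Gamma1 M) (K1L ℂ M) :=
  thetaDataOne (modRealK1C D) hM (isSepVar_modRealK1C D hM)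

@[simp] theorem thetaDataOneW_θ (D : WeberCuspData M) (hM : 3 ≤ M) :
    (thetaDataOneW D hM).θ = thetaMerOf (modRealK1C D) := rfl

/-- **(D4) for `Γ₁(M)`**, from the analytic Weber data. -/
theorem hD4_oneW (D : WeberCuspData M) (hM : 3 ≤ M) :
    HD4Of (Gamma1 M) (thetaDataOneW D hM).θ :=
  hD4_one (modRealK1C D) hM (isSepVar_modRealK1C D hM)
    (thetaC_modRealK1C_injective D (by omega))

/-- **The complex Kummer data of `Γ₁(M)`**, from the analytic Weber data. -/
def kummerDataOneW (D : WeberCuspData M) (hM : 3 ≤ M) :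
    KummerData ℂ (K1L ℂ M) MerH ↥(Gamma1 M) :=
  kummerDataOf (thetaDataOneW D hM) (hD4_oneW D hM)

@[simp] theorem kummerDataOneW_θ (D : WeberCuspData M) (hM : 3 ≤ M) :
    (kummerDataOneW D hM).θ = thetaMerOf (modRealK1C D) := rfl

@[simp] theorem kummerDataOneW_Good (D : WeberCuspData M) (hM : 3 ≤ M) :
    (kummerDataOneW D hM).Good = goodChar (Gamma1 M) := rfl

/-- the Riemann package of `ℂ(X₁(M))`. -/
theorem riemannPkg_K1C (D : WeberCuspData M) (hM : 3 ≤ M) :
    Fermat.Agent.Red.RiemannPkg ℂ (K1L ℂ M) := riemannPkg_K1C_of_data D hM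

/-- principal divisors on `ℂ(X₁(M))` (not an instance: it depends on the analytic data). -/
theorem hasPrincipalDivisors_K1C (D : WeberCuspData M) (hM : 3 ≤ M) :
    HasPrincipalDivisors ℂ (K1L ℂ M) := (riemannPkg_K1C D hM).principal

variable [HasPrincipalDivisors ℂ (K1L ℂ M)]

/-- **The Kummer homomorphism of `Γ₁(M)`** of level `m`, from the analytic Weber data. -/
def kappaOneW (D : WeberCuspData M) (hM : 3 ≤ M) {m : ℕ} (hm : 0 < m) {ζ : ℂˣ}
    (hζ : IsPrimitiveRoot ζ m) : ↥(LamOf (Gamma1 M)) →+ Pic0 ℂ (K1L ℂ M) :=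
  kappaLamOf (kummerDataOf (thetaDataOneW D hM) (hD4_oneW D hM)) (kummerDataOf_Good _ _) hm hζ

/-- the kernel of `kappaOneW` is `m • Λ₁(M)`. -/
theorem kappaOneW_eq_zero_iff (D : WeberCuspData M) (hM : 3 ≤ M) {m : ℕ} (hm : 0 < m) {ζ : ℂˣ}
    (hζ : IsPrimitiveRoot ζ m) (l : ↥(LamOf (Gamma1 M))) :
    kappaOneW D hM hm hζ l = 0 ↔ ∃ l' : ↥(LamOf (Gamma1 M)), l = m • l' :=
  kappaLamOf_eq_zero_iff _ _ (riemannPkg_K1C D hM) hm hζ l

/-- `kappaOneW` takes its values in the `m`-torsion. -/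
theorem nsmul_kappaOneW (D : WeberCuspData M) (hM : 3 ≤ M) {m : ℕ} (hm : 0 < m) {ζ : ℂˣ}
    (hζ : IsPrimitiveRoot ζ m) (l : ↥(LamOf (Gamma1 M))) :
    m • kappaOneW D hM hm hζ l = 0 :=
  nsmul_kappaLamOf _ _ hm hζ l

end Fermat.Agent.DS.Kum
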