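import Mathlib
import Fermat.Agent.DS.Kum.C.HThetaReal
import Fermat.Agent.DS.Kum.C.HThetaOf
import Fermat.Agent.DS.Kum.C.KummerOneInst
import Fermat.Agent.DS.Kum.An.KappaOne
import Fermat.Agent.DS.X1.LevRealGen

/-!
# PROGRAMME III (S48), block X1-KUM, leaf KUM-2b (b2) (helper7): THE INSTANCE of `H_θ` for `T_p` on
`Γ₁(M)` and the `T_p`-equivariance of the Kummer homomorphism `kappaOneW`

From the analytic data `D : WeberCuspData M` alone (plus the algebraic side conditions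
`h : LevInputs ℂ M p` of helper24's `heckeOne` and the degree bound `hdeg`):

* `thetaLevW D hpM : K1LevL ℂ M p →+* MerH` : the realisation of the level-`(M;p)` field over `ℂ`,
  `X0.merHom` of helper21's `PsiLevK (RingHom.id ℂ)` on `RLevK ℂ M p` (NO `ModReal` at level
  `(M;p)` is needed);
* `thetaLevW_alpha` **(hα)**, `thetaLevW_beta` **(hβ)**, `thetaLevW_stab` **(hstab)** : the three
  inputs of `hThetaOf_T1StarReps` against helper28's `thetaDataOneW D hM`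
  (`θ = thetaMerOf (modRealK1C D)`), via helper29's realisation `modRealK1C D`;
* `hThetaOf_T1StarReps_oneW` : `HThetaOf (thetaDataOneW D hM) (heckeNormOne M p) (T1StarReps …)`;
* `kappaOneW_T1Lam_star` : **`κ (T_p ⟨p⟩⁻¹ l) = heckeOne h (κ l)`**, the hypothesis `hstar` of
  helper9's `exists_kummerMap_one` with `Tb p := heckeOne (h p)`.
-/

set_option autoImplicit false
set_option linter.unusedSectionVars false
set_option linter.style.haveILetI false

open UpperHalfPlane ModularForm CongruenceSubgroup Matrix.SpecialLinearGroup AlgebraicCurve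
open ModularCurve
open scoped MatrixGroups Manifold
open P2MW.S_ModularForm_heckeT_slash_eq_self_of_mem_Gamma0.ModularForm.HeckeSlashInvariance

noncomputable section

namespace Fermat.Agent.DS.Kum

open Fermat.Agent.Jac Fermat.Agent.Red Fermat.Agent.DS.X1 Fermat.Agent.DS.X1Hecke
open Fermat.Agent.X0 (HolH MerH jFun jAn merHom)
open Fermat.Agent.S23.PrimEltQExp (scaleH)

variable {M : ℕ} [NeZero M] {p : ℕ} [NeZero p]

/-! ### The series of the level-`M` ring lie in `R1K ℂ M` -/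

theorem coe_mem_R1K_of_mem_RGen {r : K1L ℂ M} (hr : r ∈ Places.RGen (K1L ℂ M) (gens1C M)) :
    ((r : K1L ℂ M) : LaurentSeries ℂ) ∈ R1K ℂ M := by
  unfold Places.RGen at hr
  induction hr using Algebra.adjoin_induction with
  | mem x hx =>
    obtain ⟨s, hs, hx'⟩ := hx
    rw [hx']
    exact Algebra.subset_adjoin ⟨s, hs, rfl⟩
  | algebraMap c => exact Subalgebra.algebraMap_mem _ c
  | add x y _ _ hx hy => exact Subalgebra.add_mem _ hx hy
  | mul x y _ _ hx hy => exact Subalgebra.mul_mem _ hx hy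

/-- the invariance hypothesis of `PsiLevK` for `Γ' = Γ₁(M) ⊓ Γ₀(p)` itself -/
theorem hGammaLev (M p : ℕ) : ∀ γ ∈ Gamma1 M ⊓ Gamma0 p,
    γ ∈ Gamma1 M ⊓ Gamma0 p ∨ -γ ∈ Gamma1 M ⊓ Gamma0 p := fun _ h => Or.inl h

/-- the realisation of the level-`(M;p)` ring `RLevK ℂ M p` -/
def psiLevW (D : WeberCuspData M) (hpM : p.Coprime M) : RLevK ℂ M p →+* (ℍ → ℂ) :=
  PsiLevK (RingHom.id ℂ) D.toWeberAnData hpM (hGammaLev M p)

theorem psiLevW_injective (D : WeberCuspData M) (hpM : p.Coprime M) :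
    Function.Injective (psiLevW D hpM) := PsiLevK_injective _ _ _ _

theorem psiLevW_mdiff (D : WeberCuspData M) (hpM : p.Coprime M) (r : RLevK ℂ M p) :
    MDifferentiable 𝓘(ℂ) 𝓘(ℂ) (psiLevW D hpM r) := PsiLevK_mdiff _ _ _ _ r

/-- the value of `psiLevW` from a realisation in helper6's dialect -/
theorem psiLevW_eq_of_places (D : WeberCuspData M) (hpM : p.Coprime M) {Γ₁ : Subgroup SL(2, ℤ)}
    {r : RLevK ℂ M p} {F : ℍ → ℂ}
    (hF : Places.IsRealOf (RingHom.id ℂ) Γ₁ (r : LaurentSeries ℂ) F) : psiLevW D hpM r = F :=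
  PsiLevK_eq (RingHom.id ℂ) D.toWeberAnData hpM (hGammaLev M p) (Γ₁ := Γ₁)
    ⟨hF.mer, hF.qexp, hF.inv⟩

/-- **The realisation of the level-`(M;p)` function field over `ℂ`.** -/
def thetaLevW (D : WeberCuspData M) (hpM : p.Coprime M) : K1LevL ℂ M p →+* MerH :=
  letI := algebraRLevK ℂ M p
  haveI := isFractionRing_RLevK ℂ M p
  merHom (F := K1LevL ℂ M p) (psiLevW D hpM) (psiLevW_injective D hpM) (psiLevW_mdiff D hpM)

/-! ### ring-level identities (kept separate: cheap for the kernel) -/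

theorem coe_alphaOneBar_ring (D : WeberCuspData M) (r : (modRealK1C D).R) :
    ((alphaOneBar ℂ M p (algebraMap (modRealK1C D).R (K1L ℂ M) r) : K1LevL ℂ M p) :
      LaurentSeries ℂ) = (((r : (modRealK1C D).R) : K1L ℂ M) : LaurentSeries ℂ) := by
  rw [coe_alphaOneBar]
  rfl

theorem coe_betaOneBar_ring (D : WeberCuspData M) (r : (modRealK1C D).R) :
    ((betaOneBar ℂ M p (algebraMap (modRealK1C D).R (K1L ℂ M) r) : K1LevL ℂ M p) :
      LaurentSeries ℂ) = qExpand ℂ p (((r : (modRealK1C D).R) : K1L ℂ M) : LaurentSeries ℂ) := by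
  rw [coe_betaOneBar]
  rfl

theorem algebraMap_RLevK_eq_alpha (D : WeberCuspData M) (r : (modRealK1C D).R)
    (h : (((r : (modRealK1C D).R) : K1L ℂ M) : LaurentSeries ℂ) ∈ RLevK ℂ M p) :
    letI := algebraRLevK ℂ M p
    algebraMap (RLevK ℂ M p) (K1LevL ℂ M p) ⟨_, h⟩ =
      alphaOneBar ℂ M p (algebraMap (modRealK1C D).R (K1L ℂ M) r) :=
  Subtype.ext ((coe_algebraMap_RLevK ℂ M p ⟨_, h⟩).trans (coe_alphaOneBar_ring D r).symm)

theorem algebraMap_RLevK_eq_beta (D : WeberCuspData M) (r : (modRealK1C D).R)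
    (h : qExpand ℂ p (((r : (modRealK1C D).R) : K1L ℂ M) : LaurentSeries ℂ) ∈ RLevK ℂ M p) :
    letI := algebraRLevK ℂ M p
    algebraMap (RLevK ℂ M p) (K1LevL ℂ M p) ⟨_, h⟩ =
      betaOneBar ℂ M p (algebraMap (modRealK1C D).R (K1L ℂ M) r) :=
  Subtype.ext ((coe_algebraMap_RLevK ℂ M p ⟨_, h⟩).trans (coe_betaOneBar_ring D r).symm)

theorem psiLevW_alpha_ring (D : WeberCuspData M) (hpM : p.Coprime M) (r : (modRealK1C D).R)
    (h : (((r : (modRealK1C D).R) : K1L ℂ M) : LaurentSeries ℂ) ∈ RLevK ℂ M p) :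
    psiLevW D hpM ⟨_, h⟩ = (modRealK1C D).θ r :=
  psiLevW_eq_of_places D hpM (Places.isRealOf_PsiGen (hG_K1C D) r)

theorem psiLevW_beta_ring (D : WeberCuspData M) (hpM : p.Coprime M) (r : (modRealK1C D).R)
    (h : qExpand ℂ p (((r : (modRealK1C D).R) : K1L ℂ M) : LaurentSeries ℂ) ∈ RLevK ℂ M p)
    (z : ℍ) : psiLevW D hpM ⟨_, h⟩ z = (modRealK1C D).θ r (scaleH p z) := by
  have h1 := Places.isRealOf_PsiGen (hG_K1C D) r
  have h2 : IsRealOf (RingHom.id ℂ) (⊥ : Subgroup SL(2, ℤ))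
      (qExpand ℂ p (((r : (modRealK1C D).R) : K1L ℂ M) : LaurentSeries ℂ))
      (fun z => (modRealK1C D).θ r (scaleH p z)) :=
    IsRealOf.scale_of (Γ := PmGamma1 M) ⟨h1.mer, h1.qexp, h1.inv⟩ p fun γ hγ =>
      ⟨1, one_mem _, fun z => by rw [Subgroup.mem_bot.mp hγ, one_smul, one_smul]⟩
  have h3 := PsiLevK_eq (RingHom.id ℂ) D.toWeberAnData hpM (hGammaLev M p)
    (r := ⟨_, h⟩) h2
  exact congrFun h3 z

/-- **(hα)** `θ' ∘ α = θ`. -/
theorem thetaLevW_alpha (D : WeberCuspData M) (hpM : p.Coprime M) (y : K1L ℂ M) :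
    thetaLevW D hpM (alphaOneBar ℂ M p y) = thetaMerOf (modRealK1C D) y := by
  letI := algebraRLevK ℂ M p
  haveI := isFractionRing_RLevK ℂ M p
  exact merHom_comp_eq (R := (modRealK1C D).R) (F := K1L ℂ M) (R' := RLevK ℂ M p)
    (F' := K1LevL ℂ M p) (modRealK1C D).θ (modRealK1C D).θ_inj (modRealK1C D).θ_mdiff
    (psiLevW D hpM) (psiLevW_injective D hpM) (psiLevW_mdiff D hpM)
    ((alphaOneBar ℂ M p : K1L ℂ M →ₐ[ℂ] K1LevL ℂ M p) : K1L ℂ M →+* K1LevL ℂ M p)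
    (fun r => ⟨⟨_, R1K_le_RLevK (coe_mem_R1K_of_mem_RGen r.2)⟩,
      algebraMap_RLevK_eq_alpha D r _, psiLevW_alpha_ring D hpM r _⟩) y

/-- **(hβ)** `θ' ∘ β = (· ∘ diag(p,1)) ∘ θ`. -/
theorem thetaLevW_beta (D : WeberCuspData M) (hpM : p.Coprime M) (y : K1L ℂ M) :
    thetaLevW D hpM (betaOneBar ℂ M p y) =
      merComp (heckeDiagMatrix p) (thetaMerOf (modRealK1C D) y) := by
  letI := algebraRLevK ℂ M p
  haveI := isFractionRing_RLevK ℂ M p
  exact merHom_comp_eq_scale (R := (modRealK1C D).R) (F := K1L ℂ M) (R' := RLevK ℂ M p)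
    (F' := K1LevL ℂ M p) p (modRealK1C D).θ (modRealK1C D).θ_inj (modRealK1C D).θ_mdiff
    (psiLevW D hpM) (psiLevW_injective D hpM) (psiLevW_mdiff D hpM)
    ((betaOneBar ℂ M p : K1L ℂ M →ₐ[ℂ] K1LevL ℂ M p) : K1L ℂ M →+* K1LevL ℂ M p)
    (fun r => ⟨⟨_, qExpand_mem_RLevK (p := p) (coe_mem_R1K_of_mem_RGen r.2)⟩,
      algebraMap_RLevK_eq_beta D r _, psiLevW_beta_ring D hpM r _⟩) y

/-- **(hstab)** every `κ ∈ Γ₁(M)` fixing `θ'` lies in `Γ₀(p)`. -/
theorem thetaLevW_stab (D : WeberCuspData M) (hpM : p.Coprime M) (κ : ↥(Gamma1 M))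
    (hκ : ∀ z, merComp (embOf (Gamma1 M) κ) (thetaLevW D hpM z) = thetaLevW D hpM z) :
    (κ : SL(2, ℤ)) ∈ Gamma0 p := by
  letI := algebraRLevK ℂ M p
  haveI := isFractionRing_RLevK ℂ M p
  exact mem_Gamma0_of_merComp_merHom_eq (R' := RLevK ℂ M p) (F' := K1LevL ℂ M p) p
    (psiLevW D hpM) (psiLevW_injective D hpM) (psiLevW_mdiff D hpM)
    ⟨_, jqdK_mem_RLevK (K := ℂ) (M := M) (p := p) (d := p) (Dvd.intro_left M rfl)⟩
    (PsiLevK_jqd (RingHom.id ℂ) D.toWeberAnData hpM (hGammaLev M p) (Dvd.intro_left M rfl))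
    (κ : SL(2, ℤ)) (hκ _)

/-! ### `H_θ` and the `T_p`-equivariance of `kappaOneW` -/

/-- **`H_θ` for `T_p^*` on `Γ₁(M)`, the instance**: the Hecke product of `θ y` over
`Γ₁(M) diag(p,1) Γ₁(M)` is `θ (Nm_α (β y))`. -/
theorem hThetaOf_T1StarReps_oneW (D : WeberCuspData M) (hM : 3 ≤ M) (hp : p.Prime)
    (hpM : ¬ p ∣ M) (σ : ↥(Gamma0 M)) (hσ : Gamma0Map M σ = (p : ZMod M))
    (hfin : FiniteAlong ℂ (alphaOneBar ℂ M p))
    (hdeg : finrankAlong ℂ (alphaOneBar ℂ M p) ≤ p + 1) :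
    HThetaOf (thetaDataOneW D hM) (heckeNormOne (L := ℂ) M p) (T1StarReps M hp hpM σ hσ) :=
  hThetaOf_T1StarReps M hp hpM σ hσ (thetaDataOneW D hM) (alphaOneBar ℂ M p) (betaOneBar ℂ M p)
    hfin (thetaLevW D ((Nat.Prime.coprime_iff_not_dvd hp).mpr hpM))
    (fun y => thetaLevW_alpha D _ y) (fun y => thetaLevW_beta D _ y)
    (fun κ hκ => thetaLevW_stab D _ κ hκ) hdeg

variable [HasPrincipalDivisors ℂ (K1L ℂ M)]

/-- **`T_p` on the Kummer homomorphism of `Γ₁(M)`**: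
`κ (T_p ⟨p⟩⁻¹ l) = heckeOne h (κ l)` (`heckeOne h = α_* β^*`, `β = (q ↦ q^p)`, helper24's Hecke
operator of `X₁(M)` over `ℂ`).  This is `hstar` of helper9's `exists_kummerMap_one`. -/
theorem kappaOneW_T1Lam_star (D : WeberCuspData M) (hM : 3 ≤ M) (hp : p.Prime) (hpM : ¬ p ∣ M)
    (h : LevInputs ℂ M p) (hdeg : finrankAlong ℂ (alphaOneBar ℂ M p) ≤ p + 1)
    {m : ℕ} (hm : 0 < m) {ζ : ℂˣ} (hζ : IsPrimitiveRoot ζ m) (l : ↥(LamOf (Gamma1 M))) :
    kappaOneW D hM hm hζ (T1Lam M hp hpM (diamondLam M (primeUnit M hp hpM)⁻¹ l)) =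
      heckeOne h (kappaOneW D hM hm hζ l) := by
  obtain ⟨σ, hσ⟩ := exists_gamma0Map_eq M (primeUnit M hp hpM)
  rw [coe_primeUnit] at hσ
  exact kappaLamOf_T1Lam_star M (thetaDataOneW D hM) (hD4_oneW D hM) hp hpM σ hσ
    (heckeDivOne h) (heckeNormOne (L := ℂ) M p) (fun y hy => heckeDivOne_divOf h hy)
    (hThetaOf_T1StarReps_oneW D hM hp hpM σ hσ h.finA hdeg) (heckeOne h)
    (fun E => ⟨heckeDivOne_mem_degZero h E.2, heckeOne_mk h E⟩) hm hζ l

end Fermat.Agent.DS.Kum
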