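import Mathlib
import Fermat.Agent.DS.Kum.C.HThetaInst
import Fermat.Agent.DS.Kum.An.KKumOne
import Fermat.Agent.DS.J1Spec.RedCompat
import Fermat.Agent.DS.X1.LevDegreeAlong

/-!
# PROGRAMME III (S48), block X1-KUM, leaf KUM-2b (b2) (helper7): `hstar`, fully discharged

The hypothesis `hstar` of helper9's `exists_kummerMap_one` for helper28's Kummer data
`(thetaDataOneW D hM, hD4_oneW D hM)` and helper5's `Tb p := TbOne M hM p`
(`= heckeOne (levInputsC M hM p)`, the Hecke correspondence `α_* β^*` of `X₁(M)` over `ℂ`), with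
the degree bound from helper15's `finrankAlong_alphaOneBar_le ℂ`:

`hstar_oneW D hM : ∀ p hm hζ l, κ (T_p ⟨p⟩⁻¹ l) = TbOne M hM p (κ l)`.

Nothing is left as a hypothesis except the analytic data `D : WeberCuspData M` (which is
`Div.weberCuspData M`, helper16) and `3 ≤ M`.
-/

set_option autoImplicit false
set_option linter.unusedSectionVars false
set_option linter.style.haveILetI false

open UpperHalfPlane ModularForm CongruenceSubgroup Matrix.SpecialLinearGroup AlgebraicCurve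
open scoped MatrixGroups Manifold

noncomputable section

namespace Fermat.Agent.DS.Kum

open Fermat.Agent.Jac Fermat.Agent.Red Fermat.Agent.DS.X1 Fermat.Agent.DS.X1Hecke
  Fermat.Agent.DS.J1Spec

variable {M : ℕ} [NeZero M] [HasPrincipalDivisors ℂ (K1L ℂ M)]

/-- **`hstar`** of `exists_kummerMap_one`, on `kappaOneW`. -/
theorem kappaOneW_T1Lam_star_TbOne (D : WeberCuspData M) (hM : 3 ≤ M)
    (p : {p : Nat.Primes // ¬ (p : ℕ) ∣ M}) {m : ℕ} (hm : 0 < m) {ζ : ℂˣ}
    (hζ : IsPrimitiveRoot ζ m) (l : ↥(LamOf (Gamma1 M))) :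
    kappaOneW D hM hm hζ
        (T1Lam M p.1.2 p.2 (diamondLam M (primeUnit M p.1.2 p.2)⁻¹ l)) =
      TbOne M hM p.1 (kappaOneW D hM hm hζ l) := by
  haveI : NeZero ((p.1 : Nat.Primes) : ℕ) := ⟨p.1.2.ne_zero⟩
  exact kappaOneW_T1Lam_star D hM p.1.2 p.2 (levInputsC M hM (p.1 : ℕ))
    (finrankAlong_alphaOneBar_le ℂ (by omega) p.1.2
      ((Nat.Prime.coprime_iff_not_dvd p.1.2).mpr p.2)) hm hζ l

/-- **`hstar`** in the literal shape of `exists_kummerMap_one` (`R := thetaDataOneW D hM`,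
`hD4 := hD4_oneW D hM`, `Tb := TbOne M hM ·.1`). -/
theorem hstar_oneW (D : WeberCuspData M) (hM : 3 ≤ M)
    (p : {p : Nat.Primes // ¬ (p : ℕ) ∣ M}) {m : ℕ} (hm : 0 < m) {ζ : ℂˣ}
    (hζ : IsPrimitiveRoot ζ m) (l : ↥(LamOf (Gamma1 M))) :
    kappaLamOf (kummerDataOf (thetaDataOneW D hM) (hD4_oneW D hM))
        (kummerDataOf_Good (thetaDataOneW D hM) (hD4_oneW D hM)) hm hζ
        (T1Lam M p.1.2 p.2 (diamondLam M (primeUnit M p.1.2 p.2)⁻¹ l)) =
      TbOne M hM p.1 (kappaLamOf (kummerDataOf (thetaDataOneW D hM) (hD4_oneW D hM))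
        (kummerDataOf_Good (thetaDataOneW D hM) (hD4_oneW D hM)) hm hζ l) :=
  kappaOneW_T1Lam_star_TbOne D hM p hm hζ l

end Fermat.Agent.DS.Kum
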