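import Fermat.Agent.DS.Kum.An.KKumOne
import Fermat.Agent.DS.Kum.C.KummerOneInst
import Fermat.Agent.DS.J1Spec.RedCompat
import Fermat.Agent.DS.X1Hecke.DataTw
import Fermat.Agent.DS.X1OutWiring

/-!
# PROGRAMME III (S48), block X1-KUM, FINAL ASSEMBLY (helper28): the kernel `KKum` at level `M`

For `D : X1.WeberCuspData M`, `3 ≤ M`, and Hecke inputs `I : HeckeInputsOne M` whose diamonds are
base changes of `ℚ`-automorphisms `δ d` of `K1 M` (`I.dia d = lbcEquiv ℚ̄ (δ d)`), the two analytic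
compatibilities of the Kummer pairing `κ = kappaOneW D hM` over `ℂ`

* `hstar : κ (T_p ⟨p⟩⁻¹ l) = TbOne M hM p (κ l)`     (helper7, `C/HThetaInst`),
* `hdia  : κ (⟨d⟩ l)       = DbOne M (δ d⁻¹) (κ l)`  (helper9, `An/DiamondOne`),

give helper4's kernel `KKum M (I.Stw (-1) 1) (tLat M)`: for every `m > 0` a Kummer map
`ρ : Λ → J₁(M)(ℚ̄)` with kernel `m Λ`, `ρ ∘ T_p = (T_p ⟨p⟩⁻¹) ∘ ρ`, `ρ ∘ ⟨d⟩ = ⟨d⟩⁻¹ ∘ ρ`.

Glue only: helper9's `exists_kummerMap_one`, helper5's `exists_red_compat`, the `Γ₁(M)` Kummer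
data of `C/KummerOneInst`.
-/

set_option autoImplicit false
set_option linter.unusedSectionVars false
set_option linter.style.haveILetI false

open UpperHalfPlane CongruenceSubgroup AlgebraicCurve

open scoped MatrixGroups

noncomputable section

namespace Fermat.Agent.DS.Kum

open Fermat.Agent.Jac Fermat.Agent.Red Fermat.Agent.DS.X1 Fermat.Agent.DS.X1Hecke
  Fermat.Agent.DS.J1Spec Fermat.Agent.FF ModularCurve

variable {M : ℕ} [NeZero M]

/-- **(K-KUM) at level `M`, hypothesis form on the two analytic compatibilities.**  The instance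
`[HasPrincipalDivisors ℂ (K1L ℂ M)]` is a proposition (`hasPrincipalDivisors_K1C D hM`). -/
theorem kKum_one [HasPrincipalDivisors ℂ (K1L ℂ M)] (D : WeberCuspData M) (hM : 3 ≤ M) (I : HeckeInputsOne M)
    (δ : (ZMod M)ˣ → (K1 M ≃ₐ[ℚ] K1 M))
    (hδ : ∀ d, I.dia d = lbcEquiv (AlgebraicClosure ℚ) (δ d))
    (hstar : ∀ (p : {p : Nat.Primes // ¬ (p : ℕ) ∣ M}) {m : ℕ} (hm : 0 < m) {ζ : ℂˣ}
      (hζ : IsPrimitiveRoot ζ m) (l : ↥(LamOf (Gamma1 M))),
      kappaOneW D hM hm hζ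
          (T1Lam M p.1.2 p.2 (diamondLam M (primeUnit M p.1.2 p.2)⁻¹ l)) =
        TbOne M hM p.1 (kappaOneW D hM hm hζ l))
    (hdia : ∀ (d : (ZMod M)ˣ) {m : ℕ} (hm : 0 < m) {ζ : ℂˣ} (hζ : IsPrimitiveRoot ζ m)
      (l : ↥(LamOf (Gamma1 M))),
      kappaOneW D hM hm hζ (diamondLam M d l) =
        DbOne M (δ d⁻¹) (kappaOneW D hM hm hζ l)) :
    X1OutSkeleton.KKum M (I.Stw (-1) 1) (X1OutWiring.tLat M) := by
  intro m hm
  obtain ⟨red, hred, hSp, _, hSd⟩ := exists_red_compat M hM I δ hδ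
  refine exists_kummerMap_one M (thetaDataOneW D hM) (hD4_oneW D hM) (riemannPkg_K1C D hM) red hred
    (fun p => TbOne M hM p.1) (fun d => DbOne M (δ d⁻¹)) hstar hdia
    (fun p => I.T p.1) (fun d => I.D d⁻¹) hSp hSd (X1OutWiring.tLat M)
    (fun _ => rfl) (fun _ => rfl) (I.Stw (-1) 1) ?_ ?_ m hm
  · rintro ⟨p, hpM⟩ x
    rw [HeckeInputsOne.Stw_inl, zpow_neg_one, pow_one]
    rfl
  · intro d x
    rw [HeckeInputsOne.Stw_inr, zpow_neg_one]
    rfl

end Fermat.Agent.DS.Kum
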